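/-
Programme TW (S56), pillar (D), sub-brick D5c (helper57): flatness at `p` is stable under base change along a
SURJECTIVE local homomorphism `φ : R → B`:  `(B ⊗_R V) / I ≃ V / (φ⁻¹ I)` equivariantly.
-/
import Fermat.Agent.TW.DictInterface

set_option autoImplicit false
set_option linter.style.haveILetI false
set_option linter.unusedSectionVars false

open IsLocalRing TensorProduct

namespace Fermat.Agent.TW.Dict.BaseChangeFL

open Fermat.Agent.TW.Interface Fermat.Agent.TW.DictInterface

section Algebra

variable {R B : Type} [CommRing R] [CommRing B] [Algebra R B]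
  (hsurj : Function.Surjective (algebraMap R B))
  {V : Type} [AddCommGroup V] [Module R V] (I : Ideal B)

/-- `v ↦ 1 ⊗ v`, semilinear over `algebraMap R B`. -/
noncomputable def toW : V →ₛₗ[algebraMap R B] (B ⊗[R] V) where
  toFun v := (1 : B) ⊗ₜ[R] v
  map_add' v w := TensorProduct.tmul_add _ _ _
  map_smul' r v := by
    show (1 : B) ⊗ₜ[R] (r • v) = (algebraMap R B) r • ((1 : B) ⊗ₜ[R] v)
    rw [TensorProduct.tmul_smul, TensorProduct.smul_tmul', Algebra.smul_def,
      mul_one, TensorProduct.smul_tmul', smul_eq_mul, mul_one]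

theorem le_comap_toW :
    ((I.comap (algebraMap R B)) • (⊤ : Submodule R V)) ≤
      ((I • (⊤ : Submodule B (B ⊗[R] V))).comap (toW (R := R) (B := B) (V := V))) := by
  intro x hx
  refine Submodule.smul_induction_on hx ?_ ?_
  · intro r hr v _
    rw [Submodule.mem_comap, map_smulₛₗ]
    exact Submodule.smul_mem_smul (Ideal.mem_comap.1 hr) Submodule.mem_top
  · intro x y hx hy
    exact Submodule.add_mem _ hx hy

/-- The comparison map `V / (φ⁻¹ I) V → (B ⊗ V) / I (B ⊗ V)`. -/
noncomputable def compare :
    (V ⧸ ((I.comap (algebraMap R B)) • (⊤ : Submodule R V))) →ₛₗ[algebraMap R B]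
      ((B ⊗[R] V) ⧸ (I • (⊤ : Submodule B (B ⊗[R] V)))) :=
  Submodule.mapQ _ _ toW (le_comap_toW I)

theorem compare_mk (v : V) :
    compare (R := R) I (Submodule.Quotient.mk v) = Submodule.Quotient.mk ((1 : B) ⊗ₜ[R] v) := rfl

include hsurj in
theorem compare_surjective : Function.Surjective (compare (R := R) (V := V) I) := by
  intro y
  obtain ⟨w, rfl⟩ := Submodule.Quotient.mk_surjective _ y
  induction w using TensorProduct.induction_on with
  | zero => exact ⟨0, by simp⟩
  | tmul b v =>
    obtain ⟨r, rfl⟩ := hsurj b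
    refine ⟨Submodule.Quotient.mk (r • v), ?_⟩
    rw [compare_mk, TensorProduct.tmul_smul, TensorProduct.smul_tmul', Algebra.smul_def, mul_one]
  | add x y hx hy =>
    obtain ⟨a, ha⟩ := hx
    obtain ⟨b, hb⟩ := hy
    exact ⟨a + b, by rw [map_add, ha, hb, Submodule.Quotient.mk_add]⟩

/-- The submodule `(φ⁻¹ I) V`. -/
abbrev subN (V : Type) [AddCommGroup V] [Module R V] : Submodule R V :=
  (I.comap (algebraMap R B)) • (⊤ : Submodule R V)

theorem smul_mem_subN (r : R) (hr : algebraMap R B r ∈ I) (v : V) : r • v ∈ subN (R := R) I V :=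
  Submodule.smul_mem_smul (Ideal.mem_comap.2 hr) Submodule.mem_top

/-- The backward additive map on pure tensors: `b ⊗ v ↦ [r v]`, `φ r = b`. -/
noncomputable def backAux : B →+ V →+ (V ⧸ subN (R := R) I V) where
  toFun b :=
    { toFun := fun v => (subN (R := R) I V).mkQ (Function.surjInv hsurj b • v)
      map_zero' := by rw [smul_zero, map_zero]
      map_add' := fun v w => by rw [smul_add, map_add] }
  map_zero' := by
    ext v
    show (subN (R := R) I V).mkQ (Function.surjInv hsurj 0 • v) = 0
    rw [Submodule.mkQ_apply, Submodule.Quotient.mk_eq_zero]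
    refine smul_mem_subN I _ ?_ v
    rw [Function.surjInv_eq hsurj]
    exact I.zero_mem
  map_add' b b' := by
    ext v
    show (subN (R := R) I V).mkQ (Function.surjInv hsurj (b + b') • v) =
      (subN (R := R) I V).mkQ (Function.surjInv hsurj b • v) +
        (subN (R := R) I V).mkQ (Function.surjInv hsurj b' • v)
    rw [← map_add, ← add_smul, ← sub_eq_zero, ← map_sub, ← sub_smul, Submodule.mkQ_apply,
      Submodule.Quotient.mk_eq_zero]
    refine smul_mem_subN I _ ?_ v
    rw [map_sub, map_add, Function.surjInv_eq hsurj, Function.surjInv_eq hsurj,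
      Function.surjInv_eq hsurj, sub_self]
    exact I.zero_mem

theorem backAux_apply (b : B) (v : V) :
    backAux hsurj I b v = (subN (R := R) I V).mkQ (Function.surjInv hsurj b • v) := rfl

/-- Independence of the chosen preimage. -/
theorem mk_smul_eq_of_map_eq (r r' : R) (h : algebraMap R B r = algebraMap R B r') (v : V) :
    (subN (R := R) I V).mkQ (r • v) = (subN (R := R) I V).mkQ (r' • v) := by
  rw [← sub_eq_zero, ← map_sub, ← sub_smul, Submodule.mkQ_apply, Submodule.Quotient.mk_eq_zero]
  refine smul_mem_subN I _ ?_ v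
  rw [map_sub, h, sub_self]
  exact I.zero_mem

/-- The backward additive map `B ⊗ V → V / (φ⁻¹ I) V`. -/
noncomputable def back : (B ⊗[R] V) →+ (V ⧸ subN (R := R) I V) :=
  TensorProduct.liftAddHom (backAux hsurj I) (by
    intro r b v
    rw [backAux_apply, backAux_apply, ← mul_smul]
    refine mk_smul_eq_of_map_eq I _ _ ?_ v
    rw [map_mul, Function.surjInv_eq hsurj, Function.surjInv_eq hsurj, Algebra.smul_def, mul_comm])

theorem back_tmul (b : B) (v : V) :
    back hsurj I (b ⊗ₜ[R] v) = (subN (R := R) I V).mkQ (Function.surjInv hsurj b • v) := rfl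

theorem back_smul_mem (i : B) (hi : i ∈ I) (w : B ⊗[R] V) : back hsurj I (i • w) = 0 := by
  induction w using TensorProduct.induction_on with
  | zero => simp
  | tmul b v =>
    rw [TensorProduct.smul_tmul', back_tmul, Submodule.mkQ_apply, Submodule.Quotient.mk_eq_zero]
    refine smul_mem_subN I _ ?_ v
    rw [Function.surjInv_eq hsurj, smul_eq_mul]
    exact I.mul_mem_right _ hi
  | add x y hx hy => rw [smul_add, map_add, hx, hy, add_zero]

theorem back_eq_zero_of_mem (w : B ⊗[R] V) (hw : w ∈ (I • (⊤ : Submodule B (B ⊗[R] V)))) :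
    back hsurj I w = 0 := by
  refine Submodule.smul_induction_on hw ?_ ?_
  · intro i hi w _
    exact back_smul_mem hsurj I i hi w
  · intro x y hx hy
    rw [map_add, hx, hy, add_zero]

include hsurj in
theorem compare_injective : Function.Injective (compare (R := R) (V := V) I) := by
  rw [injective_iff_map_eq_zero]
  intro x hx
  obtain ⟨v, rfl⟩ := Submodule.Quotient.mk_surjective _ x
  rw [compare_mk, Submodule.Quotient.mk_eq_zero] at hx
  have h1 := back_eq_zero_of_mem hsurj I _ hx
  rw [back_tmul] at h1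
  have := mk_smul_eq_of_map_eq (V := V) I (1 : R) (Function.surjInv hsurj (1 : B))
    (by rw [Function.surjInv_eq hsurj, map_one]) v
  rw [one_smul, h1] at this
  exact this

end Algebra

section Main

variable {R B : Type} [CommRing R] [IsLocalRing R] [CommRing B] [IsLocalRing B]

theorem finite_residueField (φ : R →+* B) (hφ : IsLocalHom φ) (hs : Function.Surjective φ)
    [Finite (ResidueField R)] : Finite (ResidueField B) := by
  haveI := hφ
  refine Finite.of_surjective (ResidueField.map φ) ?_
  intro y
  obtain ⟨b, rfl⟩ := IsLocalRing.residue_surjective y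
  obtain ⟨r, rfl⟩ := hs b
  exact ⟨residue R r, ResidueField.map_residue φ r⟩

theorem flat (φ : R →+* B) (hφ : IsLocalHom φ) (hs : Function.Surjective φ) (ρ : GaloisRepAdic R)
    (p : ℕ) (h : ρ.IsFlatAt p) : (ρ.baseChangeAlong φ hφ).IsFlatAt p := by
  letI : Algebra R B := φ.toAlgebra
  have hsurj : Function.Surjective (algebraMap R B) := hs
  obtain ⟨hfin, hI⟩ := h
  refine ⟨finite_residueField φ hφ hs, fun I hIfin => ?_⟩
  -- the comap ideal has finite quotient
  have hJfin : Finite (R ⧸ I.comap φ) :=
    Finite.of_injective (Ideal.quotientMap I φ le_rfl) (Ideal.quotientMap_injective' le_rfl)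
  obtain ⟨H, i1, i2, h1, h2, h3, e, hadd, hequiv⟩ := hI (I.comap φ) hJfin
  refine ⟨H, i1, i2, h1, h2, h3, ?_⟩
  let F : (ρ.V ⧸ ((I.comap (algebraMap R B)) • (⊤ : Submodule R ρ.V))) ≃
      ((B ⊗[R] ρ.V) ⧸ (I • (⊤ : Submodule B (B ⊗[R] ρ.V)))) :=
    Equiv.ofBijective (compare (R := R) (V := ρ.V) I)
      ⟨compare_injective hsurj I, compare_surjective hsurj I⟩
  refine ⟨e.trans F, fun f g => ?_, fun σ f g hfg => ?_⟩
  · show compare (R := R) (V := ρ.V) I (e (f * g)) = compare (R := R) (V := ρ.V) I (e f) +
      compare (R := R) (V := ρ.V) I (e g)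
    rw [hadd, map_add]
  · show compare (R := R) (V := ρ.V) I (e g) =
      (ρ.baseChangeAlong φ hφ).levelAction I σ (compare (R := R) (V := ρ.V) I (e f))
    rw [hequiv σ f g hfg]
    obtain ⟨v, hv⟩ := Submodule.Quotient.mk_surjective _ (e f)
    rw [← hv]
    rfl

theorem baseChangeFL : BaseChangeFL := fun _R _B _ _ _ _ φ hφ hs ρ p h => flat φ hφ hs ρ p h

end Main

end Fermat.Agent.TW.Dict.BaseChangeFL
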