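/-
Programme TW (S56), pillar (D), strict ordinary package (helper37).

Generic transfer lemma: strict ordinarity passes along an equivariant SEMILINEAR additive map
`T : ρ.V →+ ρ'.V` over a local ring homomorphism `f : A →+* A'` which carries bases to bases.
Used for base change (`Dict/BaseChangeSO.lean`) and for passage to the residual representation
(`Dict/ResidualSO.lean`).
-/
import Mathlib
import Fermat.Agent.TW.DictInterface

set_option autoImplicit false

open IsLocalRing

namespace Fermat.Agent.TW.Dict.SOTransfer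

open Fermat.Agent.TW.Interface

variable {A A' : Type} [CommRing A] [IsLocalRing A] [CommRing A'] [IsLocalRing A']

/-- Transfer of `IsStrictOrdinaryAt` along an equivariant `f`-semilinear map carrying bases to bases. -/
theorem isStrictOrdinaryAt_of_semilinear
    (ρ : GaloisRepAdic A) (ρ' : GaloisRepAdic A') (f : A →+* A') (hf : IsLocalHom f)
    (T : ρ.V →+ ρ'.V)
    (hT : ∀ (a : A) (v : ρ.V), T (a • v) = f a • T v)
    (hequiv : ∀ (σ : GalQ) (v : ρ.V), T (ρ.ρ σ v) = ρ'.ρ σ (T v))
    (hbasis : ∀ b : Module.Basis (Fin 2) A ρ.V,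
      ∃ b' : Module.Basis (Fin 2) A' ρ'.V, ∀ i, b' i = T (b i))
    (p : ℕ) (h : ρ.IsStrictOrdinaryAt p) : ρ'.IsStrictOrdinaryAt p := by
  refine ⟨?_, fun P hP => ?_⟩
  · have h1 := h.1
    have h2 : (p : A') = f (p : A) := (map_natCast f p).symm
    rw [h2]
    exact map_nonunit f _ h1
  · obtain ⟨L, ⟨b, hL⟩, hD, hI, hxz⟩ := h.2 P hP
    obtain ⟨b', hb'⟩ := hbasis b
    have hb0L : b 0 ∈ L := by rw [hL]; exact Submodule.mem_span_singleton_self _
    -- `T` maps `L` into `L'`
    have hTL : ∀ v ∈ L, T v ∈ Submodule.span A' {b' 0} := by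
      intro v hv
      rw [hL, Submodule.mem_span_singleton] at hv
      obtain ⟨r, rfl⟩ := hv
      rw [hT, hb' 0]
      exact Submodule.smul_mem _ _ (Submodule.mem_span_singleton_self _)
    -- every vector is a combination of the `T (b i)`
    have hdec : ∀ w : ρ'.V, ∃ c0 c1 : A', w = c0 • T (b 0) + c1 • T (b 1) := by
      intro w
      refine ⟨b'.repr w 0, b'.repr w 1, ?_⟩
      have := b'.sum_repr w
      rw [Fin.sum_univ_two, hb' 0, hb' 1] at this
      exact this.symm
    refine ⟨Submodule.span A' {b' 0}, ⟨b', rfl⟩, ?_, ?_, ?_⟩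
    · intro σ hσ w hw
      rw [Submodule.mem_span_singleton] at hw
      obtain ⟨α, rfl⟩ := hw
      have h0 : ρ'.ρ σ (b' 0) = T (ρ.ρ σ (b 0)) := by rw [hb' 0, hequiv]
      rw [map_smul, h0]
      exact Submodule.smul_mem _ _ (hTL _ (hD σ hσ _ hb0L))
    · intro σ hσ w
      obtain ⟨c0, c1, rfl⟩ := hdec w
      have e1 : ρ'.ρ σ (c0 • T (b 0) + c1 • T (b 1)) - (c0 • T (b 0) + c1 • T (b 1)) =
          c0 • T (ρ.ρ σ (b 0) - b 0) + c1 • T (ρ.ρ σ (b 1) - b 1) := by
        rw [map_add, map_smul, map_smul, ← hequiv, ← hequiv, map_sub, map_sub, smul_sub, smul_sub]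
        abel
      rw [e1]
      exact Submodule.add_mem _ (Submodule.smul_mem _ _ (hTL _ (hI σ hσ _)))
        (Submodule.smul_mem _ _ (hTL _ (hI σ hσ _)))
    · intro σ hσ
      obtain ⟨x, z, hx, hz, hcyc⟩ := hxz σ hσ
      refine ⟨f x, f z, ?_, ?_, ?_⟩
      · intro w hw
        rw [Submodule.mem_span_singleton] at hw
        obtain ⟨α, rfl⟩ := hw
        have h0 : ρ'.ρ σ (b' 0) = f x • b' 0 := by rw [hb' 0, ← hequiv, hx _ hb0L, hT]
        rw [map_smul, h0, smul_comm]
      · intro w
        obtain ⟨c0, c1, rfl⟩ := hdec w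
        have e1 : ρ'.ρ σ (c0 • T (b 0) + c1 • T (b 1)) - f z • (c0 • T (b 0) + c1 • T (b 1)) =
            c0 • T (ρ.ρ σ (b 0) - z • b 0) + c1 • T (ρ.ρ σ (b 1) - z • b 1) := by
          rw [map_add, map_smul, map_smul, ← hequiv, ← hequiv, map_sub, map_sub, hT, hT,
            smul_sub, smul_sub, smul_add, smul_comm (f z) c0, smul_comm (f z) c1]
          abel
        rw [e1]
        exact Submodule.add_mem _ (Submodule.smul_mem _ _ (hTL _ (hz _)))
          (Submodule.smul_mem _ _ (hTL _ (hz _)))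
      · intro n a ha
        have h3 := hcyc n a ha
        rw [Ideal.mem_span_singleton'] at h3 ⊢
        obtain ⟨r, hr⟩ := h3
        refine ⟨f r, ?_⟩
        have : f (r * ((p ^ n : ℕ) : A)) = f (x - (a : A) * z) := by rw [hr]
        rw [map_mul, map_natCast, map_sub, map_mul, map_natCast] at this
        exact this

end Fermat.Agent.TW.Dict.SOTransfer
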