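/-
Programme TW (S56), pillar (D), brick D5b (helper37): strict ordinarity is stable under base change
along a local homomorphism.
-/
import Mathlib
import Fermat.Agent.TW.DictInterface
import Fermat.Agent.TW.Dict.SOTransfer

set_option autoImplicit false

open IsLocalRing TensorProduct

namespace Fermat.Agent.TW.Dict.BaseChangeSO

open Fermat.Agent.TW.Interface Fermat.Agent.TW

/-- **D5b.** -/
theorem baseChangeSO : DictInterface.BaseChangeSO := by
  intro R B _ _ _ _ φ hφ ρ p h
  let _ : Algebra R B := φ.toAlgebra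
  let T : ρ.V →+ (ρ.baseChangeAlong φ hφ).V := (TensorProduct.mk R B ρ.V 1).toAddMonoidHom
  have hTdef : ∀ v : ρ.V, T v = (1 : B) ⊗ₜ[R] v := fun v => rfl
  refine SOTransfer.isStrictOrdinaryAt_of_semilinear ρ (ρ.baseChangeAlong φ hφ) φ hφ T ?_ ?_ ?_ p h
  · intro a v
    rw [hTdef, hTdef]
    show (1 : B) ⊗ₜ[R] (a • v) = φ a • ((1 : B) ⊗ₜ[R] v)
    rw [TensorProduct.tmul_smul, TensorProduct.smul_tmul', TensorProduct.smul_tmul',
      Algebra.smul_def, mul_one, smul_eq_mul, mul_one]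
    rfl
  · intro σ v
    rw [hTdef, hTdef]
    show (1 : B) ⊗ₜ[R] (ρ.ρ σ v) = (ρ.ρ σ).baseChange B ((1 : B) ⊗ₜ[R] v)
    rw [LinearMap.baseChange_tmul]
  · intro b
    refine ⟨b.baseChange B, fun i => ?_⟩
    exact Module.Basis.baseChange_apply B b i

end Fermat.Agent.TW.Dict.BaseChangeSO
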