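/-
Programme TW (S56), pillar (D), bricks D2 + D3 (helper23).

* `isLiftOf_of_isEquiv` : `IsLiftOf ρbar · c` is invariant under equivalence of the lift.
* `liftCocycle : DictInterface.LiftCocycle` : the function `c` of a lift `(V × V, liftAct c)` is a
  cocycle for the adjoint action, constant modulo a subgroup of finite level.
* `liftEquivOfCohom : DictInterface.LiftEquivOfCohom` : cohomologous cocycles give equivalent lifts
  (the equivalence is `(v, w) ↦ (v, w - X v)`).
-/
import Mathlib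
import Fermat.Agent.TW.DictInterface

set_option autoImplicit false

namespace Fermat.Agent.TW.Dict.LiftCocycle

open Fermat.Agent.TW.Interface Fermat.Agent.TW.DictInterface IsLocalRing TrivSqZeroExt

variable {k : Type} [Field k]

/-- `IsLiftOf` only depends on the equivalence class of the lift. -/
theorem isLiftOf_of_isEquiv {ρbar : ResidualGaloisRep k} {ρA ρA' : GaloisRepAdic (DualNumber k)}
    {c : GalQ → Module.End k ρbar.V} (h : ρA.IsEquiv ρA') (hl : IsLiftOf ρbar ρA c) :
    IsLiftOf ρbar ρA' c := by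
  obtain ⟨E⟩ := h
  obtain ⟨e, he1, he2⟩ := hl
  refine ⟨E.toLinearEquiv.symm.toAddEquiv.trans e, fun a x => ?_, fun σ x => ?_⟩
  · have h1 : E.toLinearEquiv.symm (a • x) = a • E.toLinearEquiv.symm x := map_smul _ _ _
    show e (E.toLinearEquiv.symm (a • x)) = _
    rw [h1]
    exact he1 a _
  · have h1 : E.toLinearEquiv.symm (ρA'.ρ σ x) = ρA.ρ σ (E.toLinearEquiv.symm x) :=
      E.symm.map_apply σ x
    show e (E.toLinearEquiv.symm (ρA'.ρ σ x)) = _
    rw [h1]
    exact he2 σ _

section Rho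

variable (ρbar : ResidualGaloisRep k)

theorem rho_inv_apply (σ : GalQ) (v : ρbar.V) : ρbar.ρ σ⁻¹ (ρbar.ρ σ v) = v := by
  rw [← Module.End.mul_apply, ← map_mul, inv_mul_cancel, map_one, Module.End.one_apply]

theorem rho_apply_inv (σ : GalQ) (v : ρbar.V) : ρbar.ρ σ (ρbar.ρ σ⁻¹ v) = v := by
  rw [← Module.End.mul_apply, ← map_mul, mul_inv_cancel, map_one, Module.End.one_apply]

theorem conj_apply (σ : GalQ) (X : Module.End k ρbar.V) (v : ρbar.V) :
    conj ρbar σ X v = ρbar.ρ σ (X (ρbar.ρ σ⁻¹ v)) := rfl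

end Rho

/-- **D2.** -/
theorem liftCocycle : DictInterface.LiftCocycle (k := k) := by
  rintro ρbar ρA c ⟨e, -, he2⟩
  -- the action is multiplicative
  have hact : ∀ (σ τ : GalQ) (y : ρbar.V × ρbar.V),
      liftAct ρbar c (σ * τ) y = liftAct ρbar c σ (liftAct ρbar c τ y) := by
    intro σ τ y
    obtain ⟨x, rfl⟩ := e.surjective y
    rw [← he2, ← he2, ← he2, map_mul, Module.End.mul_apply]
  have hmul : ∀ σ τ : GalQ, c (σ * τ) = c σ + conj ρbar σ (c τ) := by
    intro σ τ
    refine LinearMap.ext fun u => ?_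
    have h1 := congrArg Prod.snd (hact σ τ (ρbar.ρ (σ * τ)⁻¹ u, 0))
    simp only [liftAct, map_zero, zero_add, rho_apply_inv] at h1
    rw [h1, LinearMap.add_apply, conj_apply, add_comm]
    have h2 : ρbar.ρ τ (ρbar.ρ (σ * τ)⁻¹ u) = ρbar.ρ σ⁻¹ u := by
      rw [← Module.End.mul_apply, ← map_mul]
      congr 2
      group
    have h3 : ρbar.ρ σ (ρbar.ρ σ⁻¹ u) = u := rho_apply_inv ρbar σ u
    rw [h2, h3]
  refine ⟨hmul, ?_⟩
  -- the level
  obtain ⟨L, hL, hcont⟩ := ρA.isAdicContinuous 2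
  refine ⟨L, hL, fun σ τ hτ => ?_⟩
  have hτ1 : ∀ x : ρA.V, ρA.ρ τ x = x := by
    intro x
    have h1 := hcont τ hτ x
    rw [DualTest23.maximalIdeal_sq, Submodule.bot_smul, Submodule.mem_bot, sub_eq_zero] at h1
    exact h1
  have hid : ∀ y : ρbar.V × ρbar.V, liftAct ρbar c τ y = y := by
    intro y
    obtain ⟨x, rfl⟩ := e.surjective y
    rw [← he2, hτ1]
  have hρτ : ∀ v : ρbar.V, ρbar.ρ τ v = v := fun v => congrArg Prod.fst (hid (v, 0))
  have hcτ : c τ = 0 := by
    refine LinearMap.ext fun v => ?_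
    have h1 := congrArg Prod.snd (hid (v, 0))
    simp only [liftAct, zero_add, hρτ] at h1
    rw [h1, LinearMap.zero_apply]
  rw [hmul, hcτ]
  refine LinearMap.ext fun v => ?_
  rw [LinearMap.add_apply, conj_apply, LinearMap.zero_apply, map_zero, add_zero]

/-- **D3.** -/
theorem liftEquivOfCohom : DictInterface.LiftEquivOfCohom (k := k) := by
  rintro ρbar ρA ρA' c c' ⟨e, he1, he2⟩ ⟨e', he1', he2'⟩ ⟨X, hX⟩
  -- the shear `(v, w) ↦ (v, w - X v)`
  let T : ρbar.V × ρbar.V ≃+ ρbar.V × ρbar.V :=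
    { toFun := fun y => (y.1, y.2 - X y.1)
      invFun := fun y => (y.1, y.2 + X y.1)
      left_inv := fun y => by simp
      right_inv := fun y => by simp
      map_add' := fun y z => by
        ext
        · simp
        · simp only [Prod.fst_add, Prod.snd_add, map_add]; abel }
  have hT : ∀ y, T y = (y.1, y.2 - X y.1) := fun _ => rfl
  -- key identity
  have hkey : ∀ (σ : GalQ) (v : ρbar.V),
      c' σ (ρbar.ρ σ v) - c σ (ρbar.ρ σ v) = ρbar.ρ σ (X v) - X (ρbar.ρ σ v) := by
    intro σ v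
    have h1 := LinearMap.congr_fun (hX σ) (ρbar.ρ σ v)
    rw [LinearMap.sub_apply, LinearMap.sub_apply, conj_apply, rho_inv_apply] at h1
    exact h1
  have hTact : ∀ (σ : GalQ) (y : ρbar.V × ρbar.V),
      T (liftAct ρbar c σ y) = liftAct ρbar c' σ (T y) := by
    intro σ y
    rw [hT, hT]
    simp only [liftAct]
    ext
    · rfl
    · simp only [map_sub]
      have := hkey σ y.1
      rw [sub_eq_iff_eq_add] at this
      rw [this]
      abel
  let E : ρA.V ≃+ ρA'.V := (e.trans T).trans e'.symm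
  have hE : ∀ x, e' (E x) = T (e x) := fun x => by
    simp only [E, AddEquiv.trans_apply, AddEquiv.apply_symm_apply]
  have hEsmul : ∀ (a : DualNumber k) (x : ρA.V), E (a • x) = a • E x := by
    intro a x
    apply e'.injective
    rw [hE, he1', hE, he1, hT, hT]
    ext
    · rfl
    · simp only [map_smul, smul_sub]
      abel
  refine ⟨⟨E.toLinearEquiv hEsmul, fun σ x => ?_⟩⟩
  apply e'.injective
  show e' (E (ρA.ρ σ x)) = e' (ρA'.ρ σ (E x))
  rw [hE, he2, he2', hE, hTact]

end Fermat.Agent.TW.Dict.LiftCocycle
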