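/-
Programme TW (S56), pillar (D) (helper23): adapter from the matrix model of lifts over `k[ε]`
(`TW/DualLift23.lean`, on top of the S53 matrix model) to `DictInterface.IsLiftOf`.

For a basis `b` of `ρbar.V`, `rbar = matrixOfBasisRes ρbar b`, and a matrix representation
`r : G_ℚ → M₂(k[ε])` with constant part `rbar`, the representation `ofMatrix r` is the lift of `ρbar`
attached to the cocycle `cocOf ρbar b (derOf r) σ = toLin b b (d σ) ∘ ρbar σ⁻¹`, `d = derOf r`.
-/
import Mathlib
import Fermat.Agent.TW.DictInterface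
import Fermat.Agent.TW.DualLift23

set_option autoImplicit false

noncomputable section

namespace Fermat.Agent.TW.Dict.MatrixLift23

open Fermat.Agent.S53 Fermat.Agent.TW.Interface Fermat.Agent.TW.DictInterface TrivSqZeroExt
  Fermat.Agent.TW.DualLift23

variable {k : Type} [Field k]

/-- `k[ε]² = k² × k²` (constant part, `ε`-part). -/
def splitEquiv : (Fin 2 → DualNumber k) ≃+ (Fin 2 → k) × (Fin 2 → k) where
  toFun x := (fun i => (x i).fst, fun i => (x i).snd)
  invFun y := fun i => inl (y.1 i) + inr (y.2 i)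
  left_inv x := by
    funext i
    exact inl_fst_add_inr_snd_eq (x i)
  right_inv y := by
    ext i <;> simp
  map_add' x y := by
    ext i <;> simp

variable (ρbar : ResidualGaloisRep k) (b : Module.Basis (Fin 2) k ρbar.V)

/-- `k[ε]² = V × V`. -/
def vecEquiv : (Fin 2 → DualNumber k) ≃+ ρbar.V × ρbar.V :=
  splitEquiv.trans (AddEquiv.prodCongr b.equivFun.symm.toAddEquiv b.equivFun.symm.toAddEquiv)

theorem vecEquiv_apply (x : Fin 2 → DualNumber k) :
    vecEquiv ρbar b x =
      (b.equivFun.symm fun i => (x i).fst, b.equivFun.symm fun i => (x i).snd) := rfl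

/-- The cocycle attached to a derivation. -/
def cocOf (d : GQ → M2 k) : GalQ → Module.End k ρbar.V :=
  fun σ => Matrix.toLin b b (d σ) * ρbar.ρ σ⁻¹

theorem cocOf_zero : cocOf ρbar b (0 : GQ → M2 k) = 0 := by
  funext σ
  simp [cocOf]

theorem cocOf_apply_rho (d : GQ → M2 k) (σ : GalQ) (v : ρbar.V) :
    cocOf ρbar b d σ (ρbar.ρ σ v) = Matrix.toLin b b (d σ) v := by
  have h : ρbar.ρ σ⁻¹ (ρbar.ρ σ v) = v := by
    rw [← Module.End.mul_apply, ← map_mul, inv_mul_cancel, map_one, Module.End.one_apply]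
  rw [cocOf, Module.End.mul_apply, h]

theorem equivFun_symm_mulVec (f : Module.End k ρbar.V) (y : Fin 2 → k) :
    b.equivFun.symm ((LinearMap.toMatrix b b f).mulVec y) = f (b.equivFun.symm y) := by
  have h := LinearMap.toMatrix_mulVec_repr b b f (b.equivFun.symm y)
  have h1 : ⇑(b.repr (b.equivFun.symm y)) = y := by
    rw [← Module.Basis.equivFun_apply, LinearEquiv.apply_symm_apply]
  rw [h1] at h
  rw [h, ← Module.Basis.equivFun_apply, LinearEquiv.symm_apply_apply]

theorem equivFun_symm_mulVec_toLin (M : M2 k) (y : Fin 2 → k) :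
    b.equivFun.symm (M.mulVec y) = Matrix.toLin b b M (b.equivFun.symm y) := by
  rw [← equivFun_symm_mulVec, LinearMap.toMatrix_toLin]

theorem vecEquiv_smul (a : DualNumber k) (x : Fin 2 → DualNumber k) :
    vecEquiv ρbar b (a • x) =
      (a.fst • (vecEquiv ρbar b x).1,
        a.fst • (vecEquiv ρbar b x).2 + a.snd • (vecEquiv ρbar b x).1) := by
  have h1 : (fun i => ((a • x) i).fst) = a.fst • fun i => (x i).fst := by
    funext i
    simp
  have h2 : (fun i => ((a • x) i).snd) =
      a.fst • (fun i => (x i).snd) + a.snd • fun i => (x i).fst := by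
    funext i
    simp [mul_comm]
  rw [vecEquiv_apply, vecEquiv_apply, h1, h2, map_add, map_smul, map_smul, map_smul]

theorem vecEquiv_mulVec (r : GQ →* M2 (DualNumber k))
    (hfst : ∀ σ, fstMat (r σ) = matrixOfBasisRes ρbar b σ) (σ : GalQ)
    (x : Fin 2 → DualNumber k) :
    vecEquiv ρbar b ((r σ).mulVec x) =
      liftAct ρbar (cocOf ρbar b (derOf r)) σ (vecEquiv ρbar b x) := by
  have hf : ∀ i j, (r σ i j).fst = LinearMap.toMatrix b b (ρbar.ρ σ) i j := by
    intro i j
    rw [← matrixOfBasisRes_apply, ← hfst σ, fstMat_apply]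
  have h1 : (fun i => (((r σ).mulVec x) i).fst) =
      (LinearMap.toMatrix b b (ρbar.ρ σ)).mulVec fun i => (x i).fst := by
    funext i
    simp only [Matrix.mulVec, dotProduct, Fin.sum_univ_two, fst_add, fst_mul, hf]
  have h2 : (fun i => (((r σ).mulVec x) i).snd) =
      (LinearMap.toMatrix b b (ρbar.ρ σ)).mulVec (fun i => (x i).snd) +
        (derOf r σ).mulVec fun i => (x i).fst := by
    funext i
    simp only [Matrix.mulVec, dotProduct, Fin.sum_univ_two, snd_add, snd_mul, hf, derOf,
      sndMat_apply, Pi.add_apply, smul_eq_mul, MulOpposite.smul_eq_mul_unop, MulOpposite.unop_op]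
    ring
  rw [vecEquiv_apply, vecEquiv_apply, h1, h2, map_add, equivFun_symm_mulVec,
    equivFun_symm_mulVec, equivFun_symm_mulVec_toLin]
  simp only [liftAct, cocOf_apply_rho]

/-- **The adapter.** -/
theorem isLiftOf_ofMatrix (r : GQ →* M2 (DualNumber k)) (hr : MatCont r)
    (hfst : ∀ σ, fstMat (r σ) = matrixOfBasisRes ρbar b σ) :
    IsLiftOf ρbar (ofMatrix r hr) (cocOf ρbar b (derOf r)) :=
  ⟨vecEquiv ρbar b, vecEquiv_smul ρbar b, fun σ x => vecEquiv_mulVec ρbar b r hfst σ x⟩

end Fermat.Agent.TW.Dict.MatrixLift23
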