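/-
Programme TW (S56), pillar (D), brick D1 `ExistsLift` (helper23): a representation over `k[ε]` with
residual representation `ρbar` is the lift attached to some `c : G_ℚ → End_k(V)`.
-/
import Mathlib
import Fermat.Agent.TW.Dict.MatrixLift23
import Fermat.Agent.TW.Dict.LiftCocycle

set_option autoImplicit false

noncomputable section

namespace Fermat.Agent.TW.Dict.ExistsLift

open Fermat.Agent.S53 Fermat.Agent.TW.Interface Fermat.Agent.TW.DictInterface TrivSqZeroExt
  IsLocalRing Fermat.Agent.TW.DualLift23 Fermat.Agent.TW.Dict.MatrixLift23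

variable (𝒪 : Type) [CommRing 𝒪] [IsDomain 𝒪] [IsDiscreteValuationRing 𝒪]

/-- **D1.** -/
theorem existsLift : DictInterface.ExistsLift 𝒪 := by
  intro ρbar ρA hres
  let b : Module.Basis (Fin 2) (ResidueField 𝒪) ρbar.V :=
    Module.finBasisOfFinrankEq (ResidueField 𝒪) ρbar.V ρbar.finrank_eq
  have hρbar : ρbar.IsEquiv (ofMatrixRes (matrixOfBasisRes ρbar b) (matrixOfBasisRes_factors ρbar b)) :=
    ⟨resEquivOfMatrixOfBasis ρbar b _ _ fun _ => rfl⟩
  obtain ⟨r, hr, hstrict, hequ⟩ :=
    exists_isStrictLift_of_residual_isEquiv ρbar (matrixOfBasisRes_factors ρbar b) hρbar ρA hres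
  have hfst := (isStrictLift_iff_fstMat _ r).mp hstrict
  exact ⟨cocOf ρbar b (derOf r),
    LiftCocycle.isLiftOf_of_isEquiv (adicIsEquiv_symm hequ) (isLiftOf_ofMatrix ρbar b r hr hfst)⟩

end Fermat.Agent.TW.Dict.ExistsLift
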