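/-
Programme TW (S56), pillar (D), brick D4d (helper37): a strict ordinary lift of `ρbar` to the dual numbers
with cyclotomic determinant (`p` odd) gives a cocycle satisfying `SOLocal`.

Proof.  Let `L_A = A ∙ b 0` be the ordinary line of the lift, `e (b 0) = (u0, u1)`.  Then `L = k ∙ u0` is the
ordinary line of `ρbar`, and with `Y u0 = - u1` the cocycle `c' = c - dY` preserves `L`, acts on `L` by
`ξ = x1 / x0` and on `V / L` by `ζ = z1 / z0`, where `D_p` acts on `L_A` by `x = x0 + ε x1` and on the quotient by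
`z = z0 + ε z1`.  Strictness gives `x = a z` (`a ∈ 𝔽_p` the value of the mod `p` cyclotomic character), hence
`ξ = ζ`; the determinant gives `x z = a`, hence `ξ + ζ = 0`; `p` odd gives `ξ = ζ = 0`.
-/
import Mathlib
import Fermat.Agent.TW.DictInterface

set_option autoImplicit false

open IsLocalRing

namespace Fermat.Agent.TW.Dict.LiftSO

open Fermat.Agent.TW.Interface Fermat.Agent.TW

/-- Every `σ ∈ G_ℚ` acts on the `p`-th roots of unity by `μ ↦ μ ^ a` for some natural number `a`. -/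
theorem exists_pow_of_galQ (p : ℕ) (hp : 0 < p) (σ : GalQ) :
    ∃ a : ℕ, ∀ μ : AlgebraicClosure ℚ, μ ^ p = 1 → σ μ = μ ^ a := by
  have : NeZero p := ⟨hp.ne'⟩
  obtain ⟨m, hm⟩ := rootsOfUnity.integer_power_of_ringEquiv p
    (σ : AlgebraicClosure ℚ ≃+* AlgebraicClosure ℚ)
  refine ⟨(m % (p : ℤ)).toNat, fun μ hμ => ?_⟩
  set t : rootsOfUnity p (AlgebraicClosure ℚ) := rootsOfUnity.mkOfPowEq μ hμ with ht
  have htμ : ((t : (AlgebraicClosure ℚ)ˣ) : AlgebraicClosure ℚ) = μ :=
    rootsOfUnity.coe_mkOfPowEq hμ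
  have htp : (t : (AlgebraicClosure ℚ)ˣ) ^ p = 1 := (mem_rootsOfUnity _ _).mp t.2
  have h1 := hm t
  have hnn : 0 ≤ m % (p : ℤ) := Int.emod_nonneg _ (by exact_mod_cast hp.ne')
  have h2 : (t : (AlgebraicClosure ℚ)ˣ) ^ m =
      (t : (AlgebraicClosure ℚ)ˣ) ^ (m % (p : ℤ)).toNat := by
    conv_lhs => rw [← Int.mul_ediv_add_emod m p]
    rw [zpow_add, zpow_mul, zpow_natCast, htp, one_zpow, one_mul, ← zpow_natCast,
      Int.toNat_of_nonneg hnn]
  rw [h2] at h1
  rw [← htμ]
  simpa using h1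

/-- Determinant of an upper triangular endomorphism of a free module of rank two. -/
theorem det_eq_mul_of_triangular {A M : Type} [CommRing A] [AddCommGroup M] [Module A M]
    (b : Module.Basis (Fin 2) A M) (f : Module.End A M) (x y z : A)
    (h0 : f (b 0) = x • b 0) (h1 : f (b 1) = z • b 1 + y • b 0) : LinearMap.det f = x * z := by
  rw [← LinearMap.det_toMatrix b, Matrix.det_fin_two]
  simp [LinearMap.toMatrix_apply, h0, h1]

/-- The linear algebra core of D4d. -/
theorem core {k V : Type} [Field k] [AddCommGroup V] [Module k V] (h2 : (2 : k) ≠ 0)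
    (r rinv C Y : Module.End k V) (hr' : rinv * r = 1) (hr : r * rinv = 1)
    (u0 u1 : V) (hu0 : u0 ≠ 0) (hY : Y u0 = -u1)
    (x0 x1 z0 z1 a : k)
    (h1 : r u0 = x0 • u0)
    (h2' : r u1 + C (r u0) = x0 • u1 + x1 • u0)
    (h3 : ∀ v : V, ∃ α0 α1 : k, r v - z0 • v = α0 • u0 ∧ C (r v) - z1 • v = α0 • u1 + α1 • u0)
    (hx0 : x0 = a * z0) (hx1 : x1 = a * z1) (hdet : x0 * z1 + x1 * z0 = 0) :
    (∀ v : V, (C - (r * Y * rinv - Y)) v ∈ Submodule.span k {u0}) ∧
    ∀ v ∈ Submodule.span k {u0}, (C - (r * Y * rinv - Y)) v = 0 := by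
  have hinv : ∀ w : V, rinv (r w) = w := fun w => by
    rw [← Module.End.mul_apply, hr', Module.End.one_apply]
  have hinv' : ∀ w : V, r (rinv w) = w := fun w => by
    rw [← Module.End.mul_apply, hr, Module.End.one_apply]
  have hx0ne : x0 ≠ 0 := by
    intro h0
    apply hu0
    rw [← hinv u0, h1, h0, zero_smul, map_zero]
  have hane : a ≠ 0 := fun h => hx0ne (by rw [hx0, h, zero_mul])
  have hz0ne : z0 ≠ 0 := fun h => hx0ne (by rw [hx0, h, mul_zero])
  have hz1 : z1 = 0 := by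
    rw [hx0, hx1] at hdet
    have h4 : (2 : k) * (a * z0) * z1 = 0 := by linear_combination hdet
    rcases mul_eq_zero.mp h4 with h5 | h5
    · exact absurd h5 (mul_ne_zero h2 (mul_ne_zero hane hz0ne))
    · exact h5
  have hx1' : x1 = 0 := by rw [hx1, hz1, mul_zero]
  -- the conjugated cocycle on vectors of the form `r w`
  have hkey : ∀ w : V, (C - (r * Y * rinv - Y)) (r w) = C (r w) - r (Y w) + Y (r w) := by
    intro w
    rw [LinearMap.sub_apply, LinearMap.sub_apply, Module.End.mul_apply, Module.End.mul_apply, hinv]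
    abel
  have hu0' : (C - (r * Y * rinv - Y)) u0 = 0 := by
    have h5 : (C - (r * Y * rinv - Y)) (r u0) = 0 := by
      have e6 : r (Y u0) = - r u1 := by rw [hY, map_neg]
      have e7 : Y (r u0) = -(x0 • u1) := by rw [h1, map_smul, hY, smul_neg]
      have e8 : C (r u0) = x0 • u1 - r u1 := by
        rw [eq_sub_iff_add_eq, add_comm, h2', hx1', zero_smul, add_zero]
      rw [hkey, e6, e7, e8]
      abel
    rw [h1, map_smul] at h5
    exact (smul_eq_zero.mp h5).resolve_left hx0ne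
  refine ⟨fun v => ?_, fun v hv => ?_⟩
  · obtain ⟨α0, α1, ha0, ha1⟩ := h3 (rinv v)
    obtain ⟨β0, β1, hb0, -⟩ := h3 (Y (rinv v))
    rw [hinv'] at ha0 ha1
    have e1 : v = z0 • rinv v + α0 • u0 := by rw [← ha0]; abel
    have e2 : C v = α0 • u1 + α1 • u0 := by rw [← ha1, hz1, zero_smul, sub_zero]
    have e3 : r (Y (rinv v)) = z0 • Y (rinv v) + β0 • u0 := by rw [← hb0]; abel
    have e4 : Y v = z0 • Y (rinv v) - α0 • u1 := by
      conv_lhs => rw [e1]
      rw [map_add, map_smul, map_smul, hY, smul_neg, sub_eq_add_neg]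
    have e5 : (C - (r * Y * rinv - Y)) v = (α1 - β0) • u0 := by
      have := hkey (rinv v)
      rw [hinv'] at this
      rw [this, e2, e3, e4, sub_smul]
      abel
    rw [e5]
    exact Submodule.smul_mem _ _ (Submodule.mem_span_singleton_self _)
  · rw [Submodule.mem_span_singleton] at hv
    obtain ⟨t, rfl⟩ := hv
    rw [map_smul, hu0', smul_zero]

section Main

variable {k : Type} [Field k]

theorem natCast_eq_zero_of_mem {p : ℕ}
    (h : (p : DualNumber k) ∈ maximalIdeal (DualNumber k)) : (p : k) = 0 := by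
  rw [mem_maximalIdeal, mem_nonunits_iff, TrivSqZeroExt.isUnit_iff_isUnit_fst,
    TrivSqZeroExt.fst_natCast, isUnit_iff_ne_zero, not_not] at h
  exact h

theorem natCast_dual_eq_zero {p : ℕ} (h : (p : k) = 0) : (p : DualNumber k) = 0 := by
  apply TrivSqZeroExt.ext
  · rw [TrivSqZeroExt.fst_natCast, h, TrivSqZeroExt.fst_zero]
  · rw [TrivSqZeroExt.snd_natCast, TrivSqZeroExt.snd_zero]

theorem two_ne_zero_of_odd_prime {p : ℕ} (hp : p.Prime) (hp2 : p ≠ 2) (hpk : (p : k) = 0) :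
    (2 : k) ≠ 0 := by
  intro h2
  rcases hp.eq_two_or_odd' with h | ⟨m, hm⟩
  · exact hp2 h
  · have h3 : (p : k) = 2 * (m : k) + 1 := by rw [hm]; push_cast; ring
    rw [hpk, h2, zero_mul, zero_add] at h3
    exact zero_ne_one h3

/-- **D4d.** -/
theorem liftSO : DictInterface.LiftSO (k := k) := by
  intro p hpF hp2 ρbar ρA c hlift _ hdetA hSO P hP
  obtain ⟨e, he_smul, he_act⟩ := hlift
  obtain ⟨LA, ⟨b, hLA⟩, hD, hI, hxz⟩ := hSO.2 P hP
  have hpk : (p : k) = 0 := natCast_eq_zero_of_mem hSO.1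
  have hpA : ((p ^ 1 : ℕ) : DualNumber k) = 0 := by
    rw [pow_one]; exact natCast_dual_eq_zero hpk
  have hspan : Ideal.span {((p ^ 1 : ℕ) : DualNumber k)} = ⊥ := by
    rw [hpA]; exact Ideal.span_singleton_eq_bot.mpr rfl
  have h2k : (2 : k) ≠ 0 := two_ne_zero_of_odd_prime hpF.out hp2 hpk
  -- coordinates of the basis vector spanning the ordinary line
  obtain ⟨u0, u1, hu⟩ : ∃ u0 u1 : ρbar.V, e (b 0) = (u0, u1) := ⟨_, _, rfl⟩
  have hb0 : b 0 ∈ LA := by rw [hLA]; exact Submodule.mem_span_singleton_self _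
  have he_act' : ∀ (σ : GalQ) (y : ρA.V), e (ρA.ρ σ y) =
      (ρbar.ρ σ (e y).1, ρbar.ρ σ (e y).2 + c σ (ρbar.ρ σ (e y).1)) := he_act
  have hmem : ∀ y ∈ LA, ∃ α : DualNumber k,
      e y = (α.fst • u0, α.fst • u1 + α.snd • u0) := by
    intro y hy
    rw [hLA, Submodule.mem_span_singleton] at hy
    obtain ⟨α, rfl⟩ := hy
    refine ⟨α, ?_⟩
    rw [he_smul, hu]
  have hu0 : u0 ≠ 0 := by
    intro h0
    have h1 : e ((DualNumber.eps : DualNumber k) • b 0) = e 0 := by
      rw [he_smul, hu, map_zero, h0, DualNumber.fst_eps, DualNumber.snd_eps, zero_smul, zero_smul,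
        smul_zero, add_zero]
      rfl
    have h2 : (DualNumber.eps : DualNumber k) • b 0 = 0 := e.injective h1
    have h3 : b.repr ((DualNumber.eps : DualNumber k) • b 0) 0 = 0 := by rw [h2]; simp
    rw [map_smul, Module.Basis.repr_self, Finsupp.smul_apply, Finsupp.single_eq_same, smul_eq_mul,
      mul_one] at h3
    have h4 := congrArg TrivSqZeroExt.snd h3
    rw [DualNumber.snd_eps, TrivSqZeroExt.snd_zero] at h4
    exact one_ne_zero h4
  have hlift_v : ∀ v : ρbar.V, e (e.symm (v, 0)) = (v, 0) := fun v => e.apply_symm_apply _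
  -- consequences of the action on the line and on the quotient
  have hfacts : ∀ (σ : GalQ) (x z : DualNumber k),
      (∀ w ∈ LA, ρA.ρ σ w = x • w) → (∀ v : ρA.V, ρA.ρ σ v - z • v ∈ LA) →
      (ρbar.ρ σ u0 = x.fst • u0) ∧
      (ρbar.ρ σ u1 + c σ (ρbar.ρ σ u0) = x.fst • u1 + x.snd • u0) ∧
      (∀ v : ρbar.V, ∃ α0 α1 : k, ρbar.ρ σ v - z.fst • v = α0 • u0 ∧
          c σ (ρbar.ρ σ v) - z.snd • v = α0 • u1 + α1 • u0) ∧
      LinearMap.det (ρA.ρ σ) = x * z := by
    intro σ x z hx hz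
    have h1 := congrArg e (hx (b 0) hb0)
    rw [he_act', he_smul, hu, Prod.ext_iff] at h1
    refine ⟨h1.1, h1.2, fun v => ?_, ?_⟩
    · obtain ⟨α, hα⟩ := hmem _ (hz (e.symm (v, 0)))
      rw [map_sub, he_act', he_smul, hlift_v, Prod.ext_iff] at hα
      refine ⟨α.fst, α.snd, hα.1, ?_⟩
      have h2 := hα.2
      simp only [Prod.snd_sub, map_zero, zero_add, smul_zero] at h2
      exact h2
    · have h3 := hz (b 1)
      rw [hLA, Submodule.mem_span_singleton] at h3
      obtain ⟨y, hy⟩ := h3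
      refine det_eq_mul_of_triangular b (ρA.ρ σ) x y z (hx (b 0) hb0) ?_
      rw [hy]; abel
  -- the endomorphism `Y` with `Y u0 = - u1`
  obtain ⟨g, hg⟩ := LinearMap.exists_leftInverse_of_injective
    (LinearMap.toSpanSingleton k ρbar.V u0) (LinearMap.ker_toSpanSingleton k hu0)
  have hgu0 : g u0 = 1 := by
    have h1 := LinearMap.congr_fun hg 1
    rwa [LinearMap.comp_apply, LinearMap.toSpanSingleton_apply, one_smul, LinearMap.id_apply] at h1
  have hY : (-(g.smulRight u1) : Module.End k ρbar.V) u0 = -u1 := by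
    rw [LinearMap.neg_apply, LinearMap.smulRight_apply, hgu0, one_smul]
  have hu0mem : u0 ∈ Submodule.span k {u0} := Submodule.mem_span_singleton_self _
  refine ⟨Submodule.span k {u0}, -(g.smulRight u1), finrank_span_singleton hu0, ?_, ?_, ?_, ?_⟩
  · intro σ hσ v hv
    obtain ⟨x, z, hx, hz, -⟩ := hxz σ hσ
    obtain ⟨f1, -, -, -⟩ := hfacts σ x z hx hz
    rw [Submodule.mem_span_singleton] at hv
    obtain ⟨t, rfl⟩ := hv
    rw [map_smul, f1]
    exact Submodule.smul_mem _ _ (Submodule.smul_mem _ _ hu0mem)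
  · intro σ hσ v
    obtain ⟨α, hα⟩ := hmem _ (hI σ hσ (e.symm (v, 0)))
    rw [map_sub, he_act', hlift_v, Prod.ext_iff] at hα
    have h1 : ρbar.ρ σ v - v = α.fst • u0 := hα.1
    rw [h1]
    exact Submodule.smul_mem _ _ hu0mem
  · intro σ hσ
    obtain ⟨x, z, hx, hz, hcyc⟩ := hxz σ hσ
    obtain ⟨f1, -, f3, -⟩ := hfacts σ x z hx hz
    refine ⟨x.fst, z.fst, ?_, ?_, ?_⟩
    · intro w hw
      rw [Submodule.mem_span_singleton] at hw
      obtain ⟨t, rfl⟩ := hw
      rw [map_smul, f1, smul_comm]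
    · intro v
      obtain ⟨α0, α1, h1, -⟩ := f3 v
      rw [h1]
      exact Submodule.smul_mem _ _ hu0mem
    · intro a ha
      have h1 := hcyc 1 a (by rwa [pow_one])
      rw [hspan, Ideal.mem_bot, sub_eq_zero] at h1
      have h2 := congrArg TrivSqZeroExt.fst h1
      rwa [TrivSqZeroExt.fst_mul, TrivSqZeroExt.fst_natCast] at h2
  · intro σ hσ
    obtain ⟨x, z, hx, hz, hcyc⟩ := hxz σ hσ
    obtain ⟨f1, f2, f3, f4⟩ := hfacts σ x z hx hz
    obtain ⟨a, ha⟩ := exists_pow_of_galQ p hpF.out.pos σ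
    have ha' : ∀ μ : AlgebraicClosure ℚ, μ ^ p ^ 1 = 1 → σ μ = μ ^ a := by rwa [pow_one]
    have hxaz : x = (a : DualNumber k) * z := by
      have h1 := hcyc 1 a ha'
      rwa [hspan, Ideal.mem_bot, sub_eq_zero] at h1
    have hdet : x * z = (a : DualNumber k) := by
      have h1 := hdetA.2 1 σ a ha'
      rwa [hspan, Ideal.mem_bot, sub_eq_zero, f4] at h1
    have hx0 : x.fst = (a : k) * z.fst := by
      have h2 := congrArg TrivSqZeroExt.fst hxaz
      rwa [TrivSqZeroExt.fst_mul, TrivSqZeroExt.fst_natCast] at h2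
    have hx1 : x.snd = (a : k) * z.snd := by
      have h2 := congrArg TrivSqZeroExt.snd hxaz
      rw [TrivSqZeroExt.snd_mul, TrivSqZeroExt.fst_natCast, TrivSqZeroExt.snd_natCast] at h2
      simpa using h2
    have hd : x.fst * z.snd + x.snd * z.fst = 0 := by
      have h2 := congrArg TrivSqZeroExt.snd hdet
      rw [TrivSqZeroExt.snd_mul, TrivSqZeroExt.snd_natCast] at h2
      simpa [mul_comm] using h2
    exact core h2k (ρbar.ρ σ) (ρbar.ρ σ⁻¹) (c σ) (-(g.smulRight u1))
      (by rw [← map_mul, inv_mul_cancel, map_one]) (by rw [← map_mul, mul_inv_cancel, map_one])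
      u0 u1 hu0 hY x.fst x.snd z.fst z.snd (a : k) f1 f2 f3 hx0 hx1 hd

end Main

end Fermat.Agent.TW.Dict.LiftSO
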