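/-
Programme TW (S56), dictionary bricks D4a `LiftTrace` and D4c `LiftUnip` (helper63).

For a lift `ρA` of `ρbar` to `k[ε]` attached to a cocycle `c` (`IsLiftOf ρbar ρA c`), a `k`-basis `v`
of `V` gives a `k[ε]`-basis of `ρA.V` in which `ρA σ` has matrix `[ρbar σ] + ε [c σ ∘ ρbar σ]`
(`toMatrix_lift`).  Hence `det ρA σ = det ρbar σ · (1 + ε tr c σ)` and
`tr ρA σ = tr ρbar σ + ε tr (c σ ∘ ρbar σ)`.

* `liftTrace` : cyclotomic determinant of `ρA` ⇒ `tr c σ = 0`.
* `liftUnip`  : charpoly `(X - 1)^2` of `ρA σ` on inertia ⇒ `tr (c σ ∘ ρbar σ) = 0` on inertia.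
* `exists_cyclo_exponent` : every `σ` acts on the `m`-th roots of unity of `ℚ̄` by a power.
-/
import Mathlib
import Fermat.Agent.TW.DictInterface

set_option autoImplicit false
set_option linter.unusedSectionVars false
set_option linter.style.haveILetI false

namespace Fermat.Agent.TW.Dict.LiftTraceUnip63

open Fermat.Agent.TW.Interface Fermat.Agent.TW.DictInterface

section Cyclo

/-- Every automorphism acts on the `p ^ n`-th roots of unity by a power. -/
theorem exists_cyclo_exponent (m : ℕ) (hm : m ≠ 0) (σ : GalQ) :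
    ∃ a : ℕ, ∀ μ : AlgebraicClosure ℚ, μ ^ m = 1 → σ μ = μ ^ a := by
  haveI : NeZero m := ⟨hm⟩
  refine ⟨(modularCyclotomicCharacter.toFun m (σ : AlgebraicClosure ℚ ≃+* AlgebraicClosure ℚ)).val,
    fun μ hμ => ?_⟩
  have hu : IsUnit μ := IsUnit.of_pow_eq_one hμ hm
  obtain ⟨t, rfl⟩ := hu
  have ht : t ∈ rootsOfUnity m (AlgebraicClosure ℚ) := by
    rw [mem_rootsOfUnity]
    exact Units.ext (by simpa using hμ)
  exact modularCyclotomicCharacter.toFun_spec' (σ : AlgebraicClosure ℚ ≃+* AlgebraicClosure ℚ) ht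

end Cyclo

section Basis

variable {k : Type} [Field k] (ρbar : ResidualGaloisRep k)

/-- `V × V ≃+ (Fin 2 → k[ε])` in coordinates. -/
noncomputable def coordEquiv (v : Module.Basis (Fin 2) k ρbar.V) :
    ρbar.V × ρbar.V ≃+ (Fin 2 → DualNumber k) where
  toFun y := fun i => TrivSqZeroExt.inl (v.equivFun y.1 i) + TrivSqZeroExt.inr (v.equivFun y.2 i)
  invFun g := (v.equivFun.symm fun i => (g i).fst, v.equivFun.symm fun i => (g i).snd)
  left_inv y := by
    apply Prod.ext
    · simp
    · simp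
  right_inv g := by
    funext i
    show TrivSqZeroExt.inl (v.equivFun (v.equivFun.symm fun i => (g i).fst) i) +
      TrivSqZeroExt.inr (v.equivFun (v.equivFun.symm fun i => (g i).snd) i) = g i
    rw [LinearEquiv.apply_symm_apply, LinearEquiv.apply_symm_apply]
    exact TrivSqZeroExt.inl_fst_add_inr_snd_eq (g i)
  map_add' y z := by
    funext i
    apply TrivSqZeroExt.ext
    · simp
    · simp

theorem coordEquiv_apply (v : Module.Basis (Fin 2) k ρbar.V) (y : ρbar.V × ρbar.V) (i : Fin 2) :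
    coordEquiv ρbar v y i =
      TrivSqZeroExt.inl (v.repr y.1 i) + TrivSqZeroExt.inr (v.repr y.2 i) := rfl

variable {ρbar}

/-- The `k[ε]`-linear coordinates on a lift. -/
noncomputable def liftCoord (v : Module.Basis (Fin 2) k ρbar.V)
    {ρA : GaloisRepAdic (DualNumber k)} (e : ρA.V ≃+ ρbar.V × ρbar.V)
    (hsm : ∀ (a : DualNumber k) (x : ρA.V),
      e (a • x) = (a.fst • (e x).1, a.fst • (e x).2 + a.snd • (e x).1)) :
    ρA.V ≃ₗ[DualNumber k] (Fin 2 → DualNumber k) :=
  { e.trans (coordEquiv ρbar v) with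
    map_smul' := fun a x => by
      funext i
      show coordEquiv ρbar v (e (a • x)) i = (a • coordEquiv ρbar v (e x)) i
      rw [hsm, Pi.smul_apply, coordEquiv_apply, coordEquiv_apply]
      apply TrivSqZeroExt.ext
      · simp
      · simp [mul_comm] }

theorem liftCoord_apply (v : Module.Basis (Fin 2) k ρbar.V)
    {ρA : GaloisRepAdic (DualNumber k)} (e : ρA.V ≃+ ρbar.V × ρbar.V)
    (hsm : ∀ (a : DualNumber k) (x : ρA.V),
      e (a • x) = (a.fst • (e x).1, a.fst • (e x).2 + a.snd • (e x).1)) (x : ρA.V) (i : Fin 2) :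
    liftCoord v e hsm x i =
      TrivSqZeroExt.inl (v.repr (e x).1 i) + TrivSqZeroExt.inr (v.repr (e x).2 i) := rfl

theorem e_liftCoord_symm_single (v : Module.Basis (Fin 2) k ρbar.V)
    {ρA : GaloisRepAdic (DualNumber k)} (e : ρA.V ≃+ ρbar.V × ρbar.V)
    (hsm : ∀ (a : DualNumber k) (x : ρA.V),
      e (a • x) = (a.fst • (e x).1, a.fst • (e x).2 + a.snd • (e x).1)) (j : Fin 2) :
    e ((liftCoord v e hsm).symm (Pi.single j 1)) = (v j, 0) := by
  have h1 : liftCoord v e hsm (e.symm (v j, 0)) = Pi.single j 1 := by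
    funext i
    rw [liftCoord_apply, AddEquiv.apply_symm_apply]
    simp only [Module.Basis.repr_self, map_zero, Finsupp.coe_zero, Pi.zero_apply,
      TrivSqZeroExt.inr_zero, add_zero]
    by_cases h : j = i
    · subst h
      simp
    · rw [Finsupp.single_eq_of_ne (Ne.symm h), Pi.single_eq_of_ne (Ne.symm h),
        TrivSqZeroExt.inl_zero]
  rw [← h1, LinearEquiv.symm_apply_apply, AddEquiv.apply_symm_apply]

/-- **The matrix of the lift** in the basis attached to a `k`-basis of `V`. -/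
theorem toMatrix_lift (v : Module.Basis (Fin 2) k ρbar.V)
    {ρA : GaloisRepAdic (DualNumber k)} {c : GalQ → Module.End k ρbar.V}
    (e : ρA.V ≃+ ρbar.V × ρbar.V)
    (hsm : ∀ (a : DualNumber k) (x : ρA.V),
      e (a • x) = (a.fst • (e x).1, a.fst • (e x).2 + a.snd • (e x).1))
    (heq : ∀ (σ : GalQ) (x : ρA.V), e (ρA.ρ σ x) = liftAct ρbar c σ (e x)) (σ : GalQ)
    (i j : Fin 2) :
    LinearMap.toMatrix (Module.Basis.ofEquivFun (liftCoord v e hsm))
        (Module.Basis.ofEquivFun (liftCoord v e hsm)) (ρA.ρ σ) i j =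
      TrivSqZeroExt.inl (LinearMap.toMatrix v v (ρbar.ρ σ) i j) +
        TrivSqZeroExt.inr (LinearMap.toMatrix v v (c σ * ρbar.ρ σ) i j) := by
  rw [LinearMap.toMatrix_apply, Module.Basis.ofEquivFun_repr_apply, Module.Basis.coe_ofEquivFun,
    liftCoord_apply, heq, e_liftCoord_symm_single, LinearMap.toMatrix_apply,
    LinearMap.toMatrix_apply]
  simp [liftAct]

end Basis

section Main

variable {k : Type} [Field k]

open Polynomial in
/-- D4c. -/
theorem liftUnip : DictInterface.LiftUnip (k := k) := by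
  intro ρbar ρA c hlift q hunip P hP σ hσ
  obtain ⟨e, hsm, heq⟩ := hlift
  let v := Module.finBasisOfFinrankEq k ρbar.V ρbar.finrank_eq
  have hM := toMatrix_lift v e hsm heq σ
  set b := Module.Basis.ofEquivFun (liftCoord v e hsm) with hb
  have hcp : LinearMap.charpoly (ρA.ρ σ) = (X - 1) ^ 2 := hunip P hP σ hσ
  have h1 : (LinearMap.toMatrix b b (ρA.ρ σ)).charpoly = (X - 1) ^ 2 := by
    rw [LinearMap.charpoly_toMatrix]; exact hcp
  rw [Matrix.charpoly_fin_two] at h1
  have h2 := congrArg (fun f : (DualNumber k)[X] => f.coeff 1) h1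
  have h3 : (LinearMap.toMatrix b b (ρA.ρ σ)).trace = 2 := by
    have e1 : ((X : (DualNumber k)[X]) - 1) ^ 2 = X ^ 2 - C 2 * X + C 1 := by
      have hC2 : (C 2 : (DualNumber k)[X]) = 2 := map_ofNat C 2
      rw [map_one, hC2]
      ring
    simp only [e1] at h2
    simp only [coeff_add, coeff_sub, coeff_X_pow, coeff_C_mul, coeff_X_one, coeff_C] at h2
    norm_num at h2
    exact h2
  rw [Matrix.trace_fin_two, hM, hM] at h3
  have h4 := congrArg TrivSqZeroExt.snd h3
  have h5 : (2 : DualNumber k).snd = 0 := by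
    have : (2 : DualNumber k) = ((2 : ℕ) : DualNumber k) := by norm_num
    rw [this, TrivSqZeroExt.snd_natCast]
  simp only [TrivSqZeroExt.snd_add, TrivSqZeroExt.snd_inl, TrivSqZeroExt.snd_inr, h5, zero_add]
    at h4
  rw [LinearMap.trace_eq_matrix_trace k v, Matrix.trace_fin_two]
  rw [← h4]

/-- D4a. -/
theorem liftTrace : DictInterface.LiftTrace (k := k) := by
  intro p hp ρbar ρA c hlift hbar hA σ
  obtain ⟨e, hsm, heq⟩ := hlift
  let v := Module.finBasisOfFinrankEq k ρbar.V ρbar.finrank_eq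
  have hM := toMatrix_lift v e hsm heq σ
  set b := Module.Basis.ofEquivFun (liftCoord v e hsm) with hb
  -- `p = 0` in `k` and in `k[ε]`
  have hpk : (p : k) = 0 := by
    have h1 := hbar.1
    rw [IsLocalRing.mem_maximalIdeal, mem_nonunits_iff, isUnit_iff_ne_zero, not_not] at h1
    exact h1
  have hpA : (p : DualNumber k) = 0 := by
    have := map_natCast (TrivSqZeroExt.inlHom k k) p
    rw [← this, hpk, map_zero]
  obtain ⟨a, ha⟩ := exists_cyclo_exponent (p ^ 1) (pow_ne_zero 1 hp.out.ne_zero) σ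
  -- determinants are `a`
  have hdetA : LinearMap.det (ρA.ρ σ) = (a : DualNumber k) := by
    have h1 := hA.2 1 σ a ha
    rw [Nat.cast_pow, hpA, pow_one, Ideal.span_singleton_eq_bot.mpr rfl, Ideal.mem_bot,
      sub_eq_zero] at h1
    exact h1
  -- the matrix computation
  rw [← LinearMap.det_toMatrix b, Matrix.det_fin_two, hM, hM, hM, hM] at hdetA
  have h2 := congrArg TrivSqZeroExt.snd hdetA
  rw [TrivSqZeroExt.snd_natCast] at h2
  simp only [TrivSqZeroExt.snd_sub, TrivSqZeroExt.snd_mul, TrivSqZeroExt.fst_add,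
    TrivSqZeroExt.fst_inl, TrivSqZeroExt.fst_inr, TrivSqZeroExt.snd_add, TrivSqZeroExt.snd_inl,
    TrivSqZeroExt.snd_inr, add_zero, zero_add, smul_eq_mul, MulOpposite.smul_eq_mul_unop,
    MulOpposite.unop_op] at h2
  rw [LinearMap.toMatrix_mul] at h2
  simp only [Matrix.mul_apply, Fin.sum_univ_two] at h2
  -- `det ρbar σ ≠ 0`
  have hdet : LinearMap.det (ρbar.ρ σ) ≠ 0 := by
    intro h0
    have h3 : ρbar.ρ σ * ρbar.ρ σ⁻¹ = 1 := by rw [← map_mul, mul_inv_cancel, map_one]
    have h4 := congrArg LinearMap.det h3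
    rw [map_mul, h0, zero_mul, map_one] at h4
    exact zero_ne_one h4
  rw [← LinearMap.det_toMatrix v, Matrix.det_fin_two] at hdet
  rw [LinearMap.trace_eq_matrix_trace k v, Matrix.trace_fin_two]
  apply (mul_eq_zero.mp _).resolve_left hdet
  rw [← h2]
  ring

end Main

end Fermat.Agent.TW.Dict.LiftTraceUnip63
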