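/-
Programme TW (S56), dictionary bricks D4b `LiftUnram` and D4e `LiftFL` (helper63).

* `liftUnram` : if the lift `ρA` attached to the cocycle `c` is unramified at `q`, then `c` vanishes
  on inertia at `q`.
* `liftFL` : if `ρA` is flat at `p` then the Galois module `(V × V, liftAct c)` is flat at `p`
  (take `I = ⊥` in `IsFlatAt`).
-/
import Mathlib
import Fermat.Agent.TW.DictInterface

set_option autoImplicit false
set_option linter.unusedSectionVars false
set_option linter.style.haveILetI false

namespace Fermat.Agent.TW.Dict.LiftUnramFL63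

open Fermat.Agent.TW.Interface Fermat.Agent.TW.DictInterface

variable {k : Type} [Field k]

/-- D4b. -/
theorem liftUnram : DictInterface.LiftUnram (k := k) := by
  intro ρbar ρA c hlift q hur P hP σ hσ
  obtain ⟨e, -, heq⟩ := hlift
  have h1 : ρA.ρ σ = 1 := hur P hP σ hσ
  have h2 : ∀ y : ρbar.V × ρbar.V, liftAct ρbar c σ y = y := by
    intro y
    have := heq σ (e.symm y)
    rw [h1, Module.End.one_apply, AddEquiv.apply_symm_apply] at this
    exact this.symm
  apply LinearMap.ext
  intro v
  have h3 := h2 (v, 0)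
  have h4 : ρbar.ρ σ v = v := congrArg Prod.fst h3
  have h5 := congrArg Prod.snd h3
  simp only [liftAct, map_zero, zero_add] at h5
  rw [h4] at h5
  rw [h5, LinearMap.zero_apply]

/-- The dual numbers over a finite field are finite. -/
theorem finite_dualNumber [Finite k] : Finite (DualNumber k) :=
  Finite.of_injective (fun a : DualNumber k => (a.fst, a.snd)) fun a b h => by
    have h1 := congrArg Prod.fst h
    have h2 := congrArg Prod.snd h
    exact TrivSqZeroExt.ext h1 h2

/-- D4e. -/
theorem liftFL : DictInterface.LiftFL (k := k) := by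
  intro p ρbar ρA c hlift hflat
  obtain ⟨e, -, heq⟩ := hlift
  obtain ⟨hfin, hI⟩ := hflat
  -- `k` is finite
  haveI : Finite k := by
    let f : k →+* IsLocalRing.ResidueField (DualNumber k) :=
      (IsLocalRing.residue (DualNumber k)).comp (TrivSqZeroExt.inlHom k k)
    exact Finite.of_injective f f.injective
  haveI : Finite (DualNumber k) := finite_dualNumber
  have hquot : Finite (DualNumber k ⧸ (⊥ : Ideal (DualNumber k))) :=
    Finite.of_surjective _ Ideal.Quotient.mk_surjective
  obtain ⟨H, instR, instH, hHfin, hHflat, hHco, e₀, he₀add, he₀eq⟩ := hI ⊥ hquot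
  -- the quotient by `⊥ • ⊤` is the module itself
  have hbot : ((⊥ : Ideal (DualNumber k)) • (⊤ : Submodule (DualNumber k) ρA.V)) = ⊥ :=
    Submodule.bot_smul _
  let q : (ρA.V ⧸ ((⊥ : Ideal (DualNumber k)) • (⊤ : Submodule (DualNumber k) ρA.V))) ≃ₗ[DualNumber k]
      ρA.V := Submodule.quotEquivOfEqBot _ hbot
  have hq : ∀ x : ρA.V, q (Submodule.Quotient.mk x) = x := fun x =>
    Submodule.quotEquivOfEqBot_apply_mk _ hbot x
  have hqact : ∀ (σ : GalQ) (y : ρA.V ⧸ ((⊥ : Ideal (DualNumber k)) •
      (⊤ : Submodule (DualNumber k) ρA.V))), q (ρA.levelAction ⊥ σ y) = ρA.ρ σ (q y) := by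
    intro σ y
    obtain ⟨x, rfl⟩ := Submodule.Quotient.mk_surjective _ y
    have : ρA.levelAction ⊥ σ (Submodule.Quotient.mk x) = Submodule.Quotient.mk (ρA.ρ σ x) := rfl
    rw [this, hq, hq]
  refine ⟨H, instR, instH, hHfin, hHflat, hHco, (e₀.trans q.toEquiv).trans e.toEquiv, ?_, ?_⟩
  · intro f g
    show e (q (e₀ (f * g))) = e (q (e₀ f)) + e (q (e₀ g))
    rw [he₀add, map_add, map_add]
  · intro σ f g hfg
    show e (q (e₀ g)) = liftAct ρbar c σ (e (q (e₀ f)))
    rw [he₀eq σ f g hfg, hqact, heq]

end Fermat.Agent.TW.Dict.LiftUnramFL63
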