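/-
Programme TW (S56), pillar (D), brick 145 (helper23): D5d `BaseChangeResidual`, D9 `TrivialLift`,
D7 `NonSurjUnique`, D7' `NonSurjExists`, via the S53 matrix model.
-/
import Mathlib
import Fermat.Agent.TW.Dict.MatrixLift23
import Fermat.Agent.TW.Dict.LiftCocycle
import Fermat.Agent.TW.DictGen23

set_option autoImplicit false

noncomputable section

namespace Fermat.Agent.TW.Dict.Residual

open Fermat.Agent.S53 Fermat.Agent.TW.Interface Fermat.Agent.TW.DictInterface TrivSqZeroExt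
  IsLocalRing Fermat.Agent.TW.DualLift23 Fermat.Agent.TW.Dict.MatrixLift23

variable (𝒪 : Type) [CommRing 𝒪] [IsDomain 𝒪] [IsDiscreteValuationRing 𝒪]

/-- **D7.** -/
theorem nonSurjUnique : DictInterface.NonSurjUnique 𝒪 := by
  intro R _ _ _ _ hres
  exact ⟨fun φ => Dict23.isLocalHom_of_algHom φ,
    fun φ φ' h h' => DictGen23.eq_of_not_surjective hres φ φ' h h'⟩

/-- **D7'.** -/
theorem nonSurjExists : DictInterface.NonSurjExists 𝒪 := by
  intro R _ _ _ _ hres
  have hbij : Function.Bijective (ResidueField.map (algebraMap 𝒪 R)) := by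
    refine ⟨RingHom.injective _, fun z => ?_⟩
    obtain ⟨a, ha⟩ := hres z
    exact ⟨residue 𝒪 a, by rw [ResidueField.map_residue]; exact ha⟩
  let e : ResidueField 𝒪 ≃+* ResidueField R := RingEquiv.ofBijective _ hbij
  let π : R →+* ResidueField 𝒪 := (e.symm : ResidueField R →+* ResidueField 𝒪).comp (residue R)
  have hπ : ∀ a : 𝒪, π (algebraMap 𝒪 R a) = residue 𝒪 a := by
    intro a
    show e.symm (residue R (algebraMap 𝒪 R a)) = residue 𝒪 a
    rw [RingEquiv.symm_apply_eq]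
    exact (ResidueField.map_residue (algebraMap 𝒪 R) a).symm
  let ψ : R →ₐ[𝒪] DualNumber (ResidueField 𝒪) :=
    { (inlHom (ResidueField 𝒪) (ResidueField 𝒪)).comp π with
      commutes' := fun a => by
        show inl (π (algebraMap 𝒪 R a)) = algebraMap 𝒪 (DualNumber (ResidueField 𝒪)) a
        rw [hπ, DualTest23.algebraMap_apply] }
  have hψ : ∀ y, ψ y = inl (π y) := fun _ => rfl
  refine ⟨ψ, fun hs => ?_⟩
  obtain ⟨y, hy⟩ := hs (inr 1)
  have h1 := congrArg snd hy
  rw [hψ, snd_inl, snd_inr] at h1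
  exact zero_ne_one h1

variable {𝒪}

/-- A matrix model of the base change of a ring-lift to `k[ε]`. -/
theorem exists_baseChange_model (ρbar : ResidualGaloisRep (ResidueField 𝒪)) (X : RingLift ρbar)
    (b : Module.Basis (Fin 2) (ResidueField 𝒪) ρbar.V)
    (φ : X.R →ₐ[𝒪] DualNumber (ResidueField 𝒪))
    (hφ : IsLocalHom (φ : X.R →+* DualNumber (ResidueField 𝒪))) :
    ∃ (r : GQ →* M2 (DualNumber (ResidueField 𝒪))) (hr : MatCont r),
      IsStrictLift (matrixOfBasisRes ρbar b) r ∧ (∀ σ i j, ∃ y, r σ i j = φ y) ∧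
      (X.ρ.baseChangeAlong (φ : X.R →+* DualNumber (ResidueField 𝒪)) hφ).IsEquiv
        (ofMatrix r hr) := by
  have hρbar : ρbar.IsEquiv (ofMatrixRes (matrixOfBasisRes ρbar b) (matrixOfBasisRes_factors ρbar b)) :=
    ⟨resEquivOfMatrixOfBasis ρbar b _ _ fun _ => rfl⟩
  obtain ⟨ru, hru, hstrict, hequ⟩ :=
    exists_isStrictLift_of_residual_isEquiv ρbar (matrixOfBasisRes_factors ρbar b) hρbar X.ρ
      X.residual_isEquiv
  refine ⟨mapMat (φ : X.R →+* DualNumber (ResidueField 𝒪)) ru,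
    MatrixModel.matCont_mapMat hru _ hφ, Dict23.isStrictLift_mapMat φ hφ hstrict,
    fun σ i j => ⟨ru σ i j, ?_⟩, ?_⟩
  · rw [mapMat_apply]
    rfl
  · exact adicIsEquiv_trans (adicIsEquiv_baseChangeAlong _ hφ hequ)
      (MatrixModel.baseChangeAlong_ofMatrix _ hφ ru hru)

variable (𝒪)

/-- **D5d.** -/
theorem baseChangeResidual : DictInterface.BaseChangeResidual 𝒪 := by
  intro ρbar X φ hφ
  let b : Module.Basis (Fin 2) (ResidueField 𝒪) ρbar.V :=
    Module.finBasisOfFinrankEq (ResidueField 𝒪) ρbar.V ρbar.finrank_eq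
  have hρbar : ρbar.IsEquiv (ofMatrixRes (matrixOfBasisRes ρbar b) (matrixOfBasisRes_factors ρbar b)) :=
    ⟨resEquivOfMatrixOfBasis ρbar b _ _ fun _ => rfl⟩
  obtain ⟨r, hr, hstr, -, hbc⟩ := exists_baseChange_model ρbar X b φ hφ
  exact resIsEquiv_trans (adicIsEquiv_residual hbc)
    (residual_isEquiv_of_isStrictLift ρbar (matrixOfBasisRes_factors ρbar b) hρbar hr hstr)

/-- **D9.** -/
theorem trivialLift : DictInterface.TrivialLift 𝒪 := by
  intro ρbar X ψ hψ hns
  let b : Module.Basis (Fin 2) (ResidueField 𝒪) ρbar.V :=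
    Module.finBasisOfFinrankEq (ResidueField 𝒪) ρbar.V ρbar.finrank_eq
  obtain ⟨r, hr, hstr, hentries, hbc⟩ := exists_baseChange_model ρbar X b ψ hψ
  have hfst := (isStrictLift_iff_fstMat _ r).mp hstr
  have hsnd : ∀ y, (ψ y).snd = 0 := by
    intro y
    by_contra hne
    exact hns (DictGen23.surjective_of_snd_ne_zero ψ hne)
  have hder : derOf r = 0 := by
    funext σ
    ext i j
    obtain ⟨y, hy⟩ := hentries σ i j
    simp only [derOf, sndMat_apply, Pi.zero_apply, Matrix.zero_apply]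
    rw [hy]
    exact hsnd y
  have h1 := isLiftOf_ofMatrix ρbar b r hr hfst
  rw [hder, cocOf_zero] at h1
  exact LiftCocycle.isLiftOf_of_isEquiv (adicIsEquiv_symm hbc) h1

end Fermat.Agent.TW.Dict.Residual
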