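/-
Programme TW (S56), pillar (D), sub-brick D6 (helper57): the conditions descend to `ρbar` itself.
Invariance of the conditions under isomorphism of representations, and
`ResidualEquiv + BaseChange* ⇒ ResidualUnip, ResidualFL, ResidualSO`.
-/
import Fermat.Agent.TW.DictInterface

set_option autoImplicit false
set_option linter.style.haveILetI false
set_option linter.unusedSectionVars false

open IsLocalRing

namespace Fermat.Agent.TW.Dict.ResidualCond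

open Fermat.Agent.TW.Interface Fermat.Agent.TW.DictInterface

section Iso

variable {A : Type} [CommRing A] [IsLocalRing A] {ρ₁ ρ₂ : GaloisRepAdic A}

theorem ρ_eq_conj (e : GaloisRepAdic.Equiv ρ₁ ρ₂) (σ : GalQ) :
    ρ₂.ρ σ = e.toLinearEquiv.conj (ρ₁.ρ σ) := by
  ext x
  rw [LinearEquiv.conj_apply_apply, e.map_apply, LinearEquiv.apply_symm_apply]

/-- Unipotency on inertia is invariant under isomorphism. -/
theorem unip_of_equiv (e : GaloisRepAdic.Equiv ρ₁ ρ₂) (q : ℕ)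
    (h : ρ₁.IsUnipotentOnInertiaAt q) : ρ₂.IsUnipotentOnInertiaAt q := by
  intro P hP σ hσ
  rw [ρ_eq_conj e σ, LinearEquiv.charpoly_conj]
  exact h P hP σ hσ

theorem map_smul_top (e : GaloisRepAdic.Equiv ρ₁ ρ₂) (I : Ideal A) :
    (I • (⊤ : Submodule A ρ₁.V)).map (e.toLinearEquiv : ρ₁.V →ₗ[A] ρ₂.V) =
      I • (⊤ : Submodule A ρ₂.V) := by
  rw [Submodule.map_smul'', Submodule.map_top, LinearEquiv.range]

/-- Flatness is invariant under isomorphism. -/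
theorem flat_of_equiv (e : GaloisRepAdic.Equiv ρ₁ ρ₂) (p : ℕ) (h : ρ₁.IsFlatAt p) :
    ρ₂.IsFlatAt p := by
  obtain ⟨hfin, hI⟩ := h
  refine ⟨hfin, fun I hIfin => ?_⟩
  obtain ⟨H, i1, i2, h1, h2, h3, eH, hadd, hequiv⟩ := hI I hIfin
  refine ⟨H, i1, i2, h1, h2, h3, ?_⟩
  let Q : (ρ₁.V ⧸ (I • (⊤ : Submodule A ρ₁.V))) ≃ₗ[A] (ρ₂.V ⧸ (I • (⊤ : Submodule A ρ₂.V))) :=
    Submodule.Quotient.equiv _ _ e.toLinearEquiv (map_smul_top e I)
  refine ⟨eH.trans Q.toEquiv, fun f g => ?_, fun σ f g hfg => ?_⟩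
  · show Q (eH (f * g)) = Q (eH f) + Q (eH g)
    rw [hadd, map_add]
  · show Q (eH g) = ρ₂.levelAction I σ (Q (eH f))
    rw [hequiv σ f g hfg]
    obtain ⟨v, hv⟩ := Submodule.Quotient.mk_surjective _ (eH f)
    rw [← hv]
    show (Submodule.Quotient.mk (e.toLinearEquiv (ρ₁.ρ σ v)) :
        ρ₂.V ⧸ (I • (⊤ : Submodule A ρ₂.V))) = Submodule.Quotient.mk (ρ₂.ρ σ (e.toLinearEquiv v))
    rw [e.map_apply]

/-- Strict ordinarity is invariant under isomorphism. -/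
theorem so_of_equiv (e : GaloisRepAdic.Equiv ρ₁ ρ₂) (p : ℕ) (h : ρ₁.IsStrictOrdinaryAt p) :
    ρ₂.IsStrictOrdinaryAt p := by
  refine ⟨h.1, fun P hP => ?_⟩
  obtain ⟨L, ⟨b, hb⟩, hD, hI, hxz⟩ := h.2 P hP
  refine ⟨L.map (e.toLinearEquiv : ρ₁.V →ₗ[A] ρ₂.V), ⟨b.map e.toLinearEquiv, ?_⟩, ?_, ?_, ?_⟩
  · rw [hb, Submodule.map_span, Set.image_singleton, Module.Basis.map_apply]
    rfl
  · rintro σ hσ _ ⟨v, hv, rfl⟩
    exact ⟨ρ₁.ρ σ v, hD σ hσ v hv, e.map_apply σ v⟩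
  · intro σ hσ w
    refine ⟨ρ₁.ρ σ (e.toLinearEquiv.symm w) - e.toLinearEquiv.symm w, hI σ hσ _, ?_⟩
    rw [LinearEquiv.coe_coe, map_sub, e.map_apply, LinearEquiv.apply_symm_apply]
  · intro σ hσ
    obtain ⟨x, z, hx, hz, hxz'⟩ := hxz σ hσ
    refine ⟨x, z, ?_, ?_, hxz'⟩
    · rintro _ ⟨v, hv, rfl⟩
      rw [LinearEquiv.coe_coe, ← e.map_apply, hx v hv, map_smul]
    · intro w
      refine ⟨ρ₁.ρ σ (e.toLinearEquiv.symm w) - z • e.toLinearEquiv.symm w, hz _, ?_⟩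
      rw [LinearEquiv.coe_coe, map_sub, e.map_apply, map_smul, LinearEquiv.apply_symm_apply]

end Iso

section Residual

variable (𝒪 : Type) [CommRing 𝒪] [IsDomain 𝒪] [IsDiscreteValuationRing 𝒪]
  [IsAdicComplete (maximalIdeal 𝒪) 𝒪] [Finite (ResidueField 𝒪)]

theorem residualUnip (hRE : ResidualEquiv 𝒪) (hbc : BaseChangeEasy) : ResidualUnip 𝒪 := by
  intro ρbar X q h
  obtain ⟨φ₀, hφ₀, -, ⟨e⟩⟩ := hRE ρbar X
  exact unip_of_equiv e q ((hbc X.R (ResidueField 𝒪) φ₀ hφ₀ X.ρ).2.2 q h)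

theorem residualFL (hRE : ResidualEquiv 𝒪) (hbc : BaseChangeFL) : ResidualFL 𝒪 := by
  intro ρbar X p h
  obtain ⟨φ₀, hφ₀, hs, ⟨e⟩⟩ := hRE ρbar X
  exact flat_of_equiv e p (hbc X.R (ResidueField 𝒪) φ₀ hφ₀ hs X.ρ p h)

theorem residualSO (hRE : ResidualEquiv 𝒪) (hbc : BaseChangeSO) : ResidualSO 𝒪 := by
  intro ρbar X p h
  obtain ⟨φ₀, hφ₀, -, ⟨e⟩⟩ := hRE ρbar X
  exact so_of_equiv e p (hbc X.R (ResidueField 𝒪) φ₀ hφ₀ X.ρ p h)

end Residual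

end Fermat.Agent.TW.Dict.ResidualCond
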