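/-
Programme TW (S56), pillar (D), brick D10 `ResidualEquiv` (helper23): for a ring-lift `X` of `ρbar`,
`ρbar` (over `k`) is the base change of `X.ρ` along a surjective local map `X.R → k`.
-/
import Mathlib
import Fermat.Agent.TW.Dict.MatrixLift23
import Fermat.Agent.TW.Dict23

set_option autoImplicit false

noncomputable section

namespace Fermat.Agent.TW.Dict.ResidualEquiv

open Fermat.Agent.S53 Fermat.Agent.TW.Interface Fermat.Agent.TW.DictInterface TrivSqZeroExt
  IsLocalRing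

section ResidueMap

variable {𝒪 : Type} [CommRing 𝒪] [IsLocalRing 𝒪]
variable {R : Type} [CommRing R] [IsLocalRing R] [Algebra 𝒪 R] [IsLocalHom (algebraMap 𝒪 R)]

/-- The residue map `R → k = 𝒪/m` of a local `𝒪`-algebra with residue field `k`. -/
theorem exists_residueMap (hres : Function.Surjective (residue R ∘ algebraMap 𝒪 R)) :
    ∃ π : R →+* ResidueField 𝒪, (∀ a : 𝒪, π (algebraMap 𝒪 R a) = residue 𝒪 a) ∧
      (∀ y ∈ maximalIdeal R, π y = 0) ∧ IsLocalHom π ∧ Function.Surjective π := by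
  have hbij : Function.Bijective (ResidueField.map (algebraMap 𝒪 R)) := by
    refine ⟨RingHom.injective _, fun z => ?_⟩
    obtain ⟨a, ha⟩ := hres z
    exact ⟨residue 𝒪 a, by rw [ResidueField.map_residue]; exact ha⟩
  let e : ResidueField 𝒪 ≃+* ResidueField R := RingEquiv.ofBijective _ hbij
  let π : R →+* ResidueField 𝒪 := (e.symm : ResidueField R →+* ResidueField 𝒪).comp (residue R)
  have hπapp : ∀ y, π y = e.symm (residue R y) := fun _ => rfl
  have hπ : ∀ a : 𝒪, π (algebraMap 𝒪 R a) = residue 𝒪 a := by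
    intro a
    rw [hπapp, RingEquiv.symm_apply_eq]
    exact (ResidueField.map_residue (algebraMap 𝒪 R) a).symm
  have hπm : ∀ y ∈ maximalIdeal R, π y = 0 := by
    intro y hy
    rw [hπapp, (residue_eq_zero_iff y).mpr hy, map_zero]
  refine ⟨π, hπ, hπm, ⟨fun y hy => ?_⟩, fun z => ?_⟩
  · by_contra hny
    have h0 := hπm y ((mem_maximalIdeal y).mpr hny)
    rw [h0] at hy
    exact not_isUnit_zero hy
  · obtain ⟨a, rfl⟩ := residue_surjective z
    exact ⟨algebraMap 𝒪 R a, hπ a⟩

end ResidueMap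

variable (𝒪 : Type) [CommRing 𝒪] [IsDomain 𝒪] [IsDiscreteValuationRing 𝒪]

/-- **D10.** -/
theorem residualEquiv : DictInterface.ResidualEquiv 𝒪 := by
  intro ρbar X
  obtain ⟨π, hπ, hπm, hloc, hsurj⟩ := exists_residueMap (𝒪 := 𝒪) X.residue_surjective
  let b : Module.Basis (Fin 2) (ResidueField 𝒪) ρbar.V :=
    Module.finBasisOfFinrankEq (ResidueField 𝒪) ρbar.V ρbar.finrank_eq
  have hrbar := matrixOfBasisRes_factors ρbar b
  have hρbar : ρbar.IsEquiv (ofMatrixRes (matrixOfBasisRes ρbar b) hrbar) :=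
    ⟨resEquivOfMatrixOfBasis ρbar b _ _ fun _ => rfl⟩
  obtain ⟨ru, hru, hstrict, hequ⟩ :=
    exists_isStrictLift_of_residual_isEquiv ρbar hrbar hρbar X.ρ X.residual_isEquiv
  have hmap : mapMat π ru = matrixOfBasisRes ρbar b := by
    ext σ i j
    rw [mapMat_apply]
    obtain ⟨a, ha⟩ := residue_surjective (matrixOfBasisRes ρbar b σ i j)
    have h0 := hπm _ (hstrict σ i j a ha)
    rw [map_sub, hπ, sub_eq_zero] at h0
    rw [h0, ha]
  have h1 : (X.ρ.baseChangeAlong π hloc).IsEquiv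
      (ofMatrix (mapMat π ru) (MatrixModel.matCont_mapMat hru π hloc)) :=
    adicIsEquiv_trans (adicIsEquiv_baseChangeAlong _ hloc hequ)
      (MatrixModel.baseChangeAlong_ofMatrix _ hloc ru hru)
  have h2 : (GaloisRepAdic.ofResidualGaloisRep ρbar).IsEquiv
      (ofMatrix (matrixOfBasisRes ρbar b) (matCont_of_factors hrbar)) :=
    ofResidualGaloisRep_isEquiv_ofMatrix ρbar hrbar hρbar _
  exact ⟨π, hloc, hsurj, adicIsEquiv_trans h1 (adicIsEquiv_trans
    (MatrixModel.ofMatrix_isEquiv_of_eq _ _ hmap) (adicIsEquiv_symm h2))⟩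

end Fermat.Agent.TW.Dict.ResidualEquiv
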