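/-
Programme TW (S56), pillar (D), brick D6 (strict ordinary third) (helper37): strict ordinarity of a lift
`X.ρ` of `ρbar` descends to `ρbar` itself.
-/
import Mathlib
import Fermat.Agent.TW.DictInterface
import Fermat.Agent.TW.Dict.SOTransfer

set_option autoImplicit false

open IsLocalRing TensorProduct

namespace Fermat.Agent.TW.Dict.ResidualSO

open Fermat.Agent.TW.Interface Fermat.Agent.TW

section Step1

variable {R : Type} [CommRing R] [IsLocalRing R]

/-- Step 1: from `ρ` to its residual representation (viewed as a `GaloisRepAdic` over the residue field). -/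
theorem residual_isStrictOrdinaryAt (ρ : GaloisRepAdic R) (p : ℕ) (h : ρ.IsStrictOrdinaryAt p) :
    (GaloisRepAdic.ofResidualGaloisRep ρ.residual).IsStrictOrdinaryAt p := by
  let T : ρ.V →+ (GaloisRepAdic.ofResidualGaloisRep ρ.residual).V :=
    (TensorProduct.mk R (ResidueField R) ρ.V 1).toAddMonoidHom
  have hTdef : ∀ v : ρ.V, T v = (1 : ResidueField R) ⊗ₜ[R] v := fun v => rfl
  refine SOTransfer.isStrictOrdinaryAt_of_semilinear ρ _ (residue R) inferInstance T ?_ ?_ ?_ p h
  · intro a v
    rw [hTdef, hTdef]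
    show (1 : ResidueField R) ⊗ₜ[R] (a • v) = residue R a • ((1 : ResidueField R) ⊗ₜ[R] v)
    rw [TensorProduct.tmul_smul, TensorProduct.smul_tmul', TensorProduct.smul_tmul',
      Algebra.smul_def, mul_one, smul_eq_mul, mul_one]
    rfl
  · intro σ v
    rw [hTdef, hTdef]
    show (1 : ResidueField R) ⊗ₜ[R] (ρ.ρ σ v) =
      (ρ.ρ σ).baseChange (ResidueField R) ((1 : ResidueField R) ⊗ₜ[R] v)
    rw [LinearMap.baseChange_tmul]
  · intro b
    refine ⟨b.baseChange (ResidueField R), fun i => ?_⟩
    exact Module.Basis.baseChange_apply (ResidueField R) b i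

end Step1

section Step2

variable {K : Type} [Field K]

/-- Step 2: along an equivalence of residual representations. -/
theorem isStrictOrdinaryAt_of_equiv {ρ₁ ρ₂ : ResidualGaloisRep K} (e : ResidualGaloisRep.Equiv ρ₁ ρ₂)
    (p : ℕ) (h : (GaloisRepAdic.ofResidualGaloisRep ρ₁).IsStrictOrdinaryAt p) :
    (GaloisRepAdic.ofResidualGaloisRep ρ₂).IsStrictOrdinaryAt p := by
  let T : (GaloisRepAdic.ofResidualGaloisRep ρ₁).V →+ (GaloisRepAdic.ofResidualGaloisRep ρ₂).V :=
    e.toLinearEquiv.toLinearMap.toAddMonoidHom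
  have hTdef : ∀ v, T v = e.toLinearEquiv v := fun v => rfl
  refine SOTransfer.isStrictOrdinaryAt_of_semilinear _ _ (RingHom.id K) inferInstance T ?_ ?_ ?_ p h
  · intro a v
    rw [hTdef, hTdef, RingHom.id_apply]
    exact map_smul e.toLinearEquiv a v
  · intro σ v
    rw [hTdef, hTdef]
    exact e.map_apply σ v
  · intro b
    refine ⟨b.map e.toLinearEquiv, fun i => ?_⟩
    rw [hTdef]
    exact Module.Basis.map_apply b e.toLinearEquiv i

end Step2

section Step3

variable {K K' : Type} [Field K] [Field K']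

/-- Step 3: descent along a bijective field homomorphism. -/
theorem isStrictOrdinaryAt_of_baseChangeAlong (ψ : K →+* K') (hψ : Function.Bijective ψ)
    (ρ : ResidualGaloisRep K) (p : ℕ)
    (h : (GaloisRepAdic.ofResidualGaloisRep (ρ.baseChangeAlong ψ)).IsStrictOrdinaryAt p) :
    (GaloisRepAdic.ofResidualGaloisRep ρ).IsStrictOrdinaryAt p := by
  let _ : Algebra K K' := ψ.toAlgebra
  let ψe : K ≃+* K' := RingEquiv.ofBijective ψ hψ
  have hψe : ∀ c : K, ψe c = ψ c := fun c => rfl
  have halg : ∀ c : K, algebraMap K K' c = ψ c := fun c => rfl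
  -- `ψ⁻¹` as a `K`-linear equivalence `K' ≃ K`
  let ψl : K' ≃ₗ[K] K :=
    { toFun := ψe.symm
      invFun := ψe
      map_add' := fun x y => map_add ψe.symm x y
      map_smul' := fun c x => by
        rw [RingHom.id_apply, Algebra.smul_def, map_mul, halg, ← hψe, RingEquiv.symm_apply_apply,
          smul_eq_mul]
      left_inv := fun x => ψe.apply_symm_apply x
      right_inv := fun x => ψe.symm_apply_apply x }
  have hψl : ∀ r : K', ψl r = ψe.symm r := fun r => rfl
  let E : K' ⊗[K] ρ.V ≃ₗ[K] ρ.V :=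
    (TensorProduct.congr ψl (LinearEquiv.refl K ρ.V)).trans (TensorProduct.lid K ρ.V)
  have hE : ∀ (r : K') (v : ρ.V), E (r ⊗ₜ[K] v) = ψe.symm r • v := by
    intro r v
    show (TensorProduct.lid K ρ.V) ((TensorProduct.congr ψl (LinearEquiv.refl K ρ.V)) (r ⊗ₜ[K] v)) = _
    rw [TensorProduct.congr_tmul, TensorProduct.lid_tmul, hψl, LinearEquiv.refl_apply]
  have hloc : IsLocalHom (ψe.symm : K' →+* K) :=
    ⟨fun a ha => by
      have := ha.map ψe
      rwa [RingEquiv.coe_toRingHom, RingEquiv.apply_symm_apply] at this⟩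
  have hsemi : ∀ (a : K') (w : K' ⊗[K] ρ.V), E (a • w) = ψe.symm a • E w := by
    intro a w
    induction w using TensorProduct.induction_on with
    | zero => rw [smul_zero, map_zero, smul_zero]
    | tmul r v => rw [TensorProduct.smul_tmul', hE, hE, smul_eq_mul, map_mul, mul_smul]
    | add x y hx hy => rw [smul_add, map_add, map_add, smul_add, hx, hy]
  have hequiv : ∀ (σ : GalQ) (w : K' ⊗[K] ρ.V),
      E ((ρ.ρ σ).baseChange K' w) = ρ.ρ σ (E w) := by
    intro σ w
    induction w using TensorProduct.induction_on with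
    | zero => rw [map_zero, map_zero, map_zero]
    | tmul r v => rw [LinearMap.baseChange_tmul, hE, hE, map_smul]
    | add x y hx hy => rw [map_add, map_add, map_add, map_add, hx, hy]
  have hbas : ∀ b : Module.Basis (Fin 2) K' (K' ⊗[K] ρ.V),
      ∃ b' : Module.Basis (Fin 2) K ρ.V, ∀ i, b' i = E (b i) := by
    intro b
    have hli : LinearIndependent K (fun i => E (b i)) := by
      have h1 : LinearIndependent K' (b : Fin 2 → K' ⊗[K] ρ.V) := b.linearIndependent
      have h2 : LinearIndependent K (b : Fin 2 → K' ⊗[K] ρ.V) := by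
        refine h1.restrict_scalars ?_
        intro c d hcd
        simp only [Algebra.smul_def, mul_one] at hcd
        exact hψ.1 hcd
      exact h2.map' E.toLinearMap (LinearMap.ker_eq_bot.mpr E.injective)
    have hcard : Fintype.card (Fin 2) = Module.finrank K ρ.V := by
      rw [Fintype.card_fin, ρ.finrank_eq]
    refine ⟨basisOfLinearIndependentOfCardEqFinrank hli hcard, fun i => ?_⟩
    rw [coe_basisOfLinearIndependentOfCardEqFinrank]
  exact SOTransfer.isStrictOrdinaryAt_of_semilinear
    (GaloisRepAdic.ofResidualGaloisRep (ρ.baseChangeAlong ψ)) (GaloisRepAdic.ofResidualGaloisRep ρ)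
    (ψe.symm : K' →+* K) hloc E.toLinearMap.toAddMonoidHom hsemi hequiv hbas p h

end Step3

section Main

variable (𝒪 : Type) [CommRing 𝒪] [IsDomain 𝒪] [IsDiscreteValuationRing 𝒪]

/-- **D6 (strict ordinary).** -/
theorem residualSO : DictInterface.ResidualSO 𝒪 := by
  intro ρbar X p h
  have h1 := residual_isStrictOrdinaryAt X.ρ p h
  obtain ⟨e⟩ := X.residual_isEquiv
  have h2 := isStrictOrdinaryAt_of_equiv e p h1
  refine isStrictOrdinaryAt_of_baseChangeAlong (ResidueField.map (algebraMap 𝒪 X.R)) ⟨?_, ?_⟩ ρbar p h2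
  · exact (ResidueField.map (algebraMap 𝒪 X.R)).injective
  · intro y
    obtain ⟨a, ha⟩ := X.residue_surjective y
    refine ⟨residue 𝒪 a, ?_⟩
    rw [ResidueField.map_residue]
    exact ha

end Main

end Fermat.Agent.TW.Dict.ResidualSO
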