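/-
Programme TW (S56), pillar (D), sub-brick D5a (helper57): the three "easy" conditions are stable under base
change along a local homomorphism.
-/
import Fermat.Agent.TW.DictInterface

set_option autoImplicit false
set_option linter.style.haveILetI false

open Polynomial IsLocalRing

namespace Fermat.Agent.TW.Dict.BaseChangeEasy

open Fermat.Agent.TW.Interface Fermat.Agent.TW.DictInterface

variable {R B : Type} [CommRing R] [IsLocalRing R] [CommRing B] [IsLocalRing B]

theorem baseChangeAlong_ρ_apply (φ : R →+* B) (hφ : IsLocalHom φ) (ρ : GaloisRepAdic R) (σ : GalQ) :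
    (ρ.baseChangeAlong φ hφ).ρ σ =
      (letI : Algebra R B := φ.toAlgebra; (ρ.ρ σ).baseChange B) := rfl

theorem unram (φ : R →+* B) (hφ : IsLocalHom φ) (ρ : GaloisRepAdic R) (q : ℕ)
    (h : ρ.IsUnramifiedAt q) : (ρ.baseChangeAlong φ hφ).IsUnramifiedAt q := by
  intro P hP σ hσ
  letI : Algebra R B := φ.toAlgebra
  change (ρ.ρ σ).baseChange B = 1
  rw [h P hP σ hσ]
  exact LinearMap.baseChange_one _ _

theorem unip (φ : R →+* B) (hφ : IsLocalHom φ) (ρ : GaloisRepAdic R) (q : ℕ)
    (h : ρ.IsUnipotentOnInertiaAt q) : (ρ.baseChangeAlong φ hφ).IsUnipotentOnInertiaAt q := by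
  intro P hP σ hσ
  letI : Algebra R B := φ.toAlgebra
  change LinearMap.charpoly ((ρ.ρ σ).baseChange B) = (Polynomial.X - 1) ^ 2
  rw [LinearMap.charpoly_baseChange, h P hP σ hσ]
  simp

theorem det (φ : R →+* B) (hφ : IsLocalHom φ) (ρ : GaloisRepAdic R) (p : ℕ)
    (h : ρ.DetIsCyclotomic p) : (ρ.baseChangeAlong φ hφ).DetIsCyclotomic p := by
  letI : Algebra R B := φ.toAlgebra
  refine ⟨?_, fun n σ a ha => ?_⟩
  · have h1 : φ (p : R) ∈ maximalIdeal B := by
      haveI := hφ
      exact (mem_maximalIdeal _).2 (map_nonunit φ _ ((mem_maximalIdeal _).1 h.1))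
    simpa using h1
  · have h1 := h.2 n σ a ha
    change LinearMap.det ((ρ.ρ σ).baseChange B) - (a : B) ∈ Ideal.span {((p ^ n : ℕ) : B)}
    rw [LinearMap.det_baseChange]
    obtain ⟨r, hr⟩ := Ideal.mem_span_singleton'.1 h1
    refine Ideal.mem_span_singleton'.2 ⟨φ r, ?_⟩
    have h2 : algebraMap R B (LinearMap.det (ρ.ρ σ)) = φ (LinearMap.det (ρ.ρ σ)) := rfl
    rw [h2]
    have h3 := congrArg φ hr
    simp only [map_mul, map_sub, map_natCast] at h3
    exact h3

theorem baseChangeEasy : BaseChangeEasy := fun _R _B _ _ _ _ φ hφ ρ =>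
  ⟨fun p h => det φ hφ ρ p h, fun q h => unram φ hφ ρ q h, fun q h => unip φ hφ ρ q h⟩

end Fermat.Agent.TW.Dict.BaseChangeEasy
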