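/-
Programme TW (S56), pillar (D): FINAL WIRING (helper23).  All sub-bricks D1 … D10 of
`TW/DictInterface.lean` are on main; this file plugs them into `DictAssembly` and obtains
`Interface.BrickD_SO 𝒪 p` and `Interface.BrickD_FL 𝒪 p` unconditionally.
-/
import Fermat.Agent.TW.DictAssembly
import Fermat.Agent.TW.Dict.ExistsLift
import Fermat.Agent.TW.Dict.LiftCocycle
import Fermat.Agent.TW.Dict.Residual
import Fermat.Agent.TW.Dict.ResidualEquiv
import Fermat.Agent.TW.Dict.ResidualCond
import Fermat.Agent.TW.Dict.BaseChangeEasy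
import Fermat.Agent.TW.Dict.BaseChangeFL
import Fermat.Agent.TW.Dict.BaseChangeSO
import Fermat.Agent.TW.Dict.LiftSO
import Fermat.Agent.TW.Dict.LiftTraceUnip63
import Fermat.Agent.TW.Dict.LiftUnramFL63

set_option autoImplicit false

namespace Fermat.Agent.TW.Dict.Final23

open Fermat.Agent.TW IsLocalRing

variable (𝒪 : Type) [CommRing 𝒪] [IsDomain 𝒪] [IsDiscreteValuationRing 𝒪]
  [IsAdicComplete (maximalIdeal 𝒪) 𝒪] [Finite (ResidueField 𝒪)]

/-- All the sub-bricks common to the strict-ordinary and the flat version. -/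
theorem common : DictAssembly.Common 𝒪 where
  existsLift := Dict.ExistsLift.existsLift 𝒪
  liftCocycle := Dict.LiftCocycle.liftCocycle
  liftEquiv := Dict.LiftCocycle.liftEquivOfCohom
  liftTrace := Dict.LiftTraceUnip63.liftTrace
  liftUnram := Dict.LiftUnramFL63.liftUnram
  liftUnip := Dict.LiftTraceUnip63.liftUnip
  nonSurjUnique := Dict.Residual.nonSurjUnique 𝒪
  nonSurjExists := Dict.Residual.nonSurjExists 𝒪
  trivialLift := Dict.Residual.trivialLift 𝒪
  baseChangeResidual := Dict.Residual.baseChangeResidual 𝒪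
  baseChangeEasy := Dict.BaseChangeEasy.baseChangeEasy
  residualUnip := Dict.ResidualCond.residualUnip 𝒪 (Dict.ResidualEquiv.residualEquiv 𝒪)
    Dict.BaseChangeEasy.baseChangeEasy

/-- **Pillar (D), strict-ordinary version, unconditional.** -/
theorem brickD_SO (p : ℕ) [Fact p.Prime] : Interface.BrickD_SO 𝒪 p :=
  DictAssembly.brickD_SO p (common 𝒪) Dict.BaseChangeSO.baseChangeSO
    (Dict.ResidualCond.residualSO 𝒪 (Dict.ResidualEquiv.residualEquiv 𝒪)
      Dict.BaseChangeSO.baseChangeSO)
    Dict.LiftSO.liftSO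

/-- **Pillar (D), flat version, unconditional.** -/
theorem brickD_FL (p : ℕ) [Fact p.Prime] : Interface.BrickD_FL 𝒪 p :=
  DictAssembly.brickD_FL p (common 𝒪) Dict.BaseChangeFL.baseChangeFL
    (Dict.ResidualCond.residualFL 𝒪 (Dict.ResidualEquiv.residualEquiv 𝒪)
      Dict.BaseChangeFL.baseChangeFL)
    Dict.LiftUnramFL63.liftFL

end Fermat.Agent.TW.Dict.Final23
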